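/-
GATE-E / E8.SQ / M1 (V) (helper30), file 1 (abstract, Mathlib + helper17's `NormBC`):
**the norm along a tower of intermediate fields commutes with a "twisted" norm** — the field theory
behind `Nm_{N → N/q} ∘ T_ℓ = T_ℓ ∘ Nm_{N → N/q}`.

Four intermediate fields `E₁ ≤ E₂ ≤ E₄`, `E₁ ≤ E₃ ≤ E₄` of one ambient field, two ring maps
`B₁ : E₁ → E₃`, `B₂ : E₂ → E₄` with `B₂ ∘ incl = incl ∘ B₁`, equal degrees `[E₄ : E₃] = [E₂ : E₁]`
and `E₄ = E₃ · B₂ (E₂)`.  Then

  `Nm_{E₂/E₁} (Nm_{E₄/E₂} (B₂ u)) = Nm_{E₃/E₁} (B₁ (Nm_{E₂/E₁} u))`.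

* `normI h` : the norm along the inclusion of intermediate fields `E ≤ E'`;
* `normI_trans` : transitivity;
* `normI_comm` : the statement above;
* `adjoin_eq_top_of_prime_finrank` : in a field extension of prime degree, a set containing one
  element outside the base generates everything.
-/
import Mathlib
import Fermat.Agent.GL.Descent.NormBC

set_option autoImplicit false
set_option linter.style.haveILetI false

noncomputable section

namespace Fermat.Agent.GE8.SQ.V.NormCommAbs

open IntermediateField Module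

variable {K S : Type*} [Field K] [Field S] [Algebra K S]

/-- the norm along an inclusion of intermediate fields -/
def normI {E₁ E₂ : IntermediateField K S} (h : E₁ ≤ E₂) : E₂ →* E₁ :=
  @Algebra.norm E₁ E₂ _ _ (inclusion h).toRingHom.toAlgebra

theorem normI_apply {E₁ E₂ : IntermediateField K S} (h : E₁ ≤ E₂) (x : E₂) :
    normI h x = @Algebra.norm E₁ E₂ _ _ (inclusion h).toRingHom.toAlgebra x := rfl

/-- transitivity of the norm along inclusions -/
theorem normI_trans {E₁ E₂ E₃ : IntermediateField K S} (h12 : E₁ ≤ E₂) (h23 : E₂ ≤ E₃)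
    (x : E₃) : normI h12 (normI h23 x) = normI (h12.trans h23) x := by
  letI a12 : Algebra E₁ E₂ := (inclusion h12).toRingHom.toAlgebra
  letI a23 : Algebra E₂ E₃ := (inclusion h23).toRingHom.toAlgebra
  letI a13 : Algebra E₁ E₃ := (inclusion (h12.trans h23)).toRingHom.toAlgebra
  haveI : IsScalarTower E₁ E₂ E₃ := IsScalarTower.of_algebraMap_eq fun _ => rfl
  exact Algebra.norm_norm

/-- **the commutation** -/
theorem normI_comm {E₁ E₂ E₃ E₄ : IntermediateField K S}
    (h12 : E₁ ≤ E₂) (h13 : E₁ ≤ E₃) (h24 : E₂ ≤ E₄) (h34 : E₃ ≤ E₄)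
    (B₁ : E₁ →+* E₃) (B₂ : E₂ →+* E₄)
    (hB : ∀ x : E₁, B₂ (inclusion h12 x) = inclusion h34 (B₁ x))
    (hfin : @FiniteDimensional E₁ E₂ _ _ (inclusion h12).toRingHom.toAlgebra.toModule)
    (hdeg : @finrank E₃ E₄ _ _ (inclusion h34).toRingHom.toAlgebra.toModule =
      @finrank E₁ E₂ _ _ (inclusion h12).toRingHom.toAlgebra.toModule)
    (hgen : @Algebra.adjoin E₃ E₄ _ _ (inclusion h34).toRingHom.toAlgebra (Set.range B₂) = ⊤)
    (u : E₂) :
    normI h12 (normI h24 (B₂ u)) = normI h13 (B₁ (normI h12 u)) := by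
  have hsq := Fermat.Agent.GL.Descent.NormBC.norm_ringHom_square
    (inclusion h12).toRingHom (inclusion h34).toRingHom B₁ B₂ (RingHom.ext hB) hfin hdeg hgen u
  rw [normI_trans, normI_apply h12 u, ← hsq, ← normI_apply h34, normI_trans]

/-- in a field extension of prime degree, a set containing an element outside the base field
generates the whole extension as an algebra -/
theorem adjoin_eq_top_of_prime_finrank {F G : Type*} [Field F] [Field G] [Algebra F G]
    (hp : (finrank F G).Prime) (s : Set G) {x : G} (hxs : x ∈ s)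
    (hx : x ∉ (algebraMap F G).range) : Algebra.adjoin F s = ⊤ := by
  haveI : FiniteDimensional F G := FiniteDimensional.of_finrank_pos hp.pos
  haveI : Algebra.IsAlgebraic F G := Algebra.IsAlgebraic.of_finite F G
  haveI := IntermediateField.isSimpleOrder_of_finrank_prime F G hp
  have h1 := IntermediateField.adjoin_toSubalgebra (F := F) (E := G) s
  rcases eq_bot_or_eq_top (IntermediateField.adjoin F s) with hb | ht
  · exfalso
    apply hx
    have h2 : x ∈ IntermediateField.adjoin F s := IntermediateField.subset_adjoin F s hxs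
    rw [hb, IntermediateField.mem_bot] at h2
    exact h2
  · rw [← h1, ht, IntermediateField.top_toSubalgebra]

end Fermat.Agent.GE8.SQ.V.NormCommAbs
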