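/-
GATE-E / E8.SQ / M1 (V) (helper30), file 2: **`Nm_{Lq → L} ∘ T_ℓ = T_ℓ ∘ Nm_{Lq → L}` at FUNCTION
level** over `ℚ̄`, for a prime `q ∣ L` and a prime `ℓ` (any `ℓ`; the Hecke meaning needs `ℓ ∤ L q`).

`T_ℓ = heckeNormF · ℓ` (helper43: `Norm_α ∘ β`), `Nm = normAlong (alphaB L q)` (the norm
`F_{Lq} → F_L` along the inclusion).

* `coe_ne_jdSeries_top` : `j((Mq) z) ∉ F_M` for `1 < q` (the Fricke involution of level `Mq`
  maps it to `j`, and `F_M` to `β_q (F_M) ⊂ ℚ̄((t^q))`);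
* `normAlong_heckeNormF` : the commutation (helper17's norm base change `NormBC` on the square
  `F_L →β F_{Lℓ}`, `F_{Lq} →β F_{Lqℓ}`; generation because `[F_{Lqℓ} : F_{Lℓ}] = q` is prime).
-/
import Fermat.Agent.GE8.SQ.V.NormCommAbs
import Fermat.Agent.GK.UQ.Degree
import Fermat.Agent.GJ.HN.Main
import Fermat.Agent.GJ.HInputs.OrdNorm

set_option autoImplicit false
set_option linter.style.haveILetI false
set_option linter.unusedSectionVars false

noncomputable section

namespace Fermat.Agent.GE8.SQ.V.NormComm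

open ModularCurve HahnSeries AlgebraicCurve IntermediateField Module
open Fermat.Agent.S24 Fermat.Agent.S24_helper62 Fermat.Agent.GJ.HN Fermat.Agent.GK.UQ
open Fermat.Agent.GE8.SQ.V.NormCommAbs

/-! ### `j((Mq) z) ∉ F_M` -/

section Top

variable (M q : ℕ) [NeZero M] [NeZero q]

theorem coe_alphaB' (y : FN M) : ((alphaB M q y : FN (M*q)) : LaurentSeries Kbar) = (y : LaurentSeries Kbar) :=
  coe_heckeAlphaBar M q y

theorem coe_jdF_top : ((jdF (M * q) (M * q) dvd_rfl : FN (M*q)) : LaurentSeries Kbar) = jdSeries (M * q) := rfl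

theorem alphaB_eq_top_of_coe (y : FN M) (hy : (y : LaurentSeries Kbar) = jdSeries (M * q)) :
   alphaB M q y = jdF (M * q) (M * q) dvd_rfl := by
  apply Subtype.ext
  rw [coe_alphaB', hy, coe_jdF_top]

theorem frickeEnd_jF : frickeEnd (M * q) (jF (M * q)) = jdF (M * q) (M * q) dvd_rfl := by
  have h := frickeEnd_gF (M * q) ⟨1, one_dvd _⟩
  rw [show gF (M * q) ⟨1, one_dvd _⟩ = jF (M * q) from rfl] at h
  rw [h]
  exact jdF_congr (M * q) _ _ (Nat.div_one _) _ _

theorem betaB_frickeEnd_eq_jF (y : FN M) (h1 : alphaB M q y = jdF (M * q) (M * q) dvd_rfl) :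
    betaB M q (frickeEnd M y) = jF (M * q) := by
  rw [← frickeEnd_alphaB, h1, ← frickeEnd_jF, frickeEnd_frickeEnd]

theorem coe_betaB_q (x : FN M) : ((betaB M q x : FN (M * q)) : LaurentSeries Kbar) =
      qExpand Kbar q (x : LaurentSeries Kbar) := coe_heckeBetaBar M q x

theorem coe_ne_jdSeries_top (hq : 1 < q) (y : FN M) :
    (y : LaurentSeries Kbar) ≠ jdSeries (M * q) := by
  intro hy
  have h2 := betaB_frickeEnd_eq_jF M q y (alphaB_eq_top_of_coe M q y hy)
  have h3 : ((betaB M q (frickeEnd M y) : FN (M * q)) : LaurentSeries Kbar).coeff (-1) =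
      ((jF (M * q) : FN (M * q)) : LaurentSeries Kbar).coeff (-1) := by rw [h2]
  rw [coe_jF, Fermat.Agent.S24_helper62.coeffEmb_jq, ModularCurve.coeff_jqModC_neg_one, coe_betaB_q,
    qExpand_coeff_of_not_dvd] at h3
  · exact zero_ne_one h3
  · intro hdvd
    have h5 : (q : ℤ) ∣ 1 := dvd_neg.mp hdvd
    have h6 : q ∣ 1 := by exact_mod_cast h5
    exact hq.ne' (Nat.dvd_one.mp h6)

end Top

/-! ### the levels -/

section Levels

/-- `F_M ≤ F_{M a}` inside `ℚ̄((t))` -/
theorem le_mul (M a : ℕ) [NeZero M] [NeZero a] :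
    modularFunctionFieldBar M ≤ modularFunctionFieldBar (M * a) := by
  intro x hx
  have h := (alphaB M a ⟨x, hx⟩).2
  rwa [coe_heckeAlphaBar] at h

theorem alphaB_eq_incl (M a : ℕ) [NeZero M] [NeZero a] :
    (alphaB M a : FN M →ₐ[Kbar] FN (M * a)) = inclusion (le_mul M a) := rfl

theorem jdSeries_congr {d d' : ℕ} [i : NeZero d] [i' : NeZero d'] (h : d = d') :
    jdSeries d = jdSeries d' := by
  subst h
  rfl

/-- the degree of `F_b / F_a` for `b = a q`, `q ∣ a` prime, along ANY inclusion -/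
theorem finrank_incl {a b q : ℕ} [NeZero a] [NeZero b] (hb : b = a * q) (hq : q.Prime)
    (hqa : q ∣ a) (h : modularFunctionFieldBar a ≤ modularFunctionFieldBar b) :
    @finrank (FN a) (FN b) _ _ (inclusion h).toRingHom.toAlgebra.toModule = q := by
  subst hb
  haveI : NeZero q := ⟨hq.ne_zero⟩
  exact finrank_alphaB_of_dvd hq hqa

end Levels

section Main

variable (L q ℓ : ℕ) [NeZero L] [NeZero q] [hℓ : Fact ℓ.Prime]

theorem le34 : modularFunctionFieldBar (L * ℓ) ≤ modularFunctionFieldBar (L * q * ℓ) := by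
  have h := le_mul (L * ℓ) q
  rwa [Nat.mul_right_comm L ℓ q] at h

theorem coe_betaB' (N : ℕ) [NeZero N] (x : FN N) :
    ((betaB N ℓ x : FN (N * ℓ)) : LaurentSeries Kbar) = qExpand Kbar ℓ (x : LaurentSeries Kbar) :=
  coe_heckeBetaBar N ℓ x

theorem hB_sq (x : FN L) :
    (betaB (L * q) ℓ).toRingHom (inclusion (le_mul L q) x) =
      inclusion (le34 L q ℓ) ((betaB L ℓ).toRingHom x) := by
  apply Subtype.ext
  show ((betaB (L * q) ℓ (inclusion (le_mul L q) x) : FN (L * q * ℓ)) : LaurentSeries Kbar) =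
    ((inclusion (le34 L q ℓ) (betaB L ℓ x) : FN (L * q * ℓ)) : LaurentSeries Kbar)
  rw [coe_betaB', IntermediateField.coe_inclusion, IntermediateField.coe_inclusion, coe_betaB']

variable (hq : q.Prime) (hqL : q ∣ L)

include hq hqL in
theorem hgen_main :
    @Algebra.adjoin (FN (L * ℓ)) (FN (L * q * ℓ)) _ _
      (inclusion (le34 L q ℓ)).toRingHom.toAlgebra
      (Set.range (betaB (L * q) ℓ).toRingHom) = ⊤ := by
  letI : Algebra (FN (L * ℓ)) (FN (L * q * ℓ)) := (inclusion (le34 L q ℓ)).toRingHom.toAlgebra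
  have hdeg : finrank (FN (L * ℓ)) (FN (L * q * ℓ)) = q :=
    finrank_incl (Nat.mul_right_comm L q ℓ) hq (Dvd.dvd.mul_right hqL ℓ) (le34 L q ℓ)
  refine adjoin_eq_top_of_prime_finrank (by rw [hdeg]; exact hq) _
    (x := (betaB (L * q) ℓ).toRingHom (jdF (L * q) (L * q) dvd_rfl)) ⟨_, rfl⟩ ?_
  rintro ⟨y, hy⟩
  apply coe_ne_jdSeries_top (L * ℓ) q hq.one_lt y
  have h1 : ((algebraMap (FN (L * ℓ)) (FN (L * q * ℓ)) y : FN (L * q * ℓ)) :
      LaurentSeries Kbar) = (((betaB (L * q) ℓ).toRingHom (jdF (L * q) (L * q) dvd_rfl) :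
        FN (L * q * ℓ)) : LaurentSeries Kbar) := by rw [hy]
  have h2 : ((algebraMap (FN (L * ℓ)) (FN (L * q * ℓ)) y : FN (L * q * ℓ)) : LaurentSeries Kbar) =
      (y : LaurentSeries Kbar) := IntermediateField.coe_inclusion _ y
  rw [h2] at h1
  rw [h1]
  show ((betaB (L * q) ℓ (jdF (L * q) (L * q) dvd_rfl) : FN (L * q * ℓ)) : LaurentSeries Kbar) = _
  rw [coe_betaB']
  show qExpand Kbar ℓ (jdSeries (L * q)) = _
  rw [Degree.jdSeries_eq, Degree.jdSeries_eq, qExpand_qExpand]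
  exact ModularCurve.qExpand_congr (by ring) _

include hq hqL in
/-- **`Nm_{Lq → L} ∘ T_ℓ = T_ℓ ∘ Nm_{Lq → L}`** (function level over `ℚ̄`) -/
theorem normI_heckeNormF (u : FN (L * q)) :
    normI (le_mul L q) (normI (le_mul (L * q) ℓ) ((betaB (L * q) ℓ).toRingHom u)) =
      normI (le_mul L ℓ) ((betaB L ℓ).toRingHom (normI (le_mul L q) u)) := by
  have hdeg12 : @finrank (FN L) (FN (L * q)) _ _
      (inclusion (le_mul L q)).toRingHom.toAlgebra.toModule = q :=
    finrank_incl rfl hq hqL (le_mul L q)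
  have hdeg34 : @finrank (FN (L * ℓ)) (FN (L * q * ℓ)) _ _
      (inclusion (le34 L q ℓ)).toRingHom.toAlgebra.toModule = q :=
    finrank_incl (Nat.mul_right_comm L q ℓ) hq (Dvd.dvd.mul_right hqL ℓ) (le34 L q ℓ)
  have hfin : @FiniteDimensional (FN L) (FN (L * q)) _ _
      (inclusion (le_mul L q)).toRingHom.toAlgebra.toModule := by
    letI : Algebra (FN L) (FN (L * q)) := (inclusion (le_mul L q)).toRingHom.toAlgebra
    apply FiniteDimensional.of_finrank_pos
    rw [hdeg12]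
    exact hq.pos
  exact normI_comm (le_mul L q) (le_mul L ℓ) (le_mul (L * q) ℓ) (le34 L q ℓ)
    (betaB L ℓ).toRingHom (betaB (L * q) ℓ).toRingHom (hB_sq L q ℓ) hfin
    (by rw [hdeg34, hdeg12]) (hgen_main L q ℓ hq hqL) u

theorem normI_eq_normA (N : ℕ) [NeZero N] (x : FN (N * ℓ)) :
    normI (le_mul N ℓ) x = normA N ℓ x := rfl

theorem normI_eq_normAlong (M a : ℕ) [NeZero M] [NeZero a] (x : FN (M * a)) :
    normI (le_mul M a) x = Fermat.Agent.GJ.HInputs.normAlong (alphaB M a) x := rfl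

include hq hqL in
/-- **`Nm_{Lq → L} ∘ T_ℓ = T_ℓ ∘ Nm_{Lq → L}`** (function level over `ℚ̄`) -/
theorem normAlong_heckeNormF (u : FN (L * q)) :
    Fermat.Agent.GJ.HInputs.normAlong (alphaB L q) (heckeNormF (L * q) ℓ u) =
      heckeNormF L ℓ (Fermat.Agent.GJ.HInputs.normAlong (alphaB L q) u) := by
  have h := normI_heckeNormF L q ℓ hq hqL u
  rw [normI_eq_normA ℓ (L * q), normI_eq_normAlong L q, normI_eq_normA ℓ L,
    normI_eq_normAlong L q] at h
  exact h

end Main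

end Fermat.Agent.GE8.SQ.V.NormComm
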