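/-
GATE-E / E8.SQ / M1 (V) (helper30), file 3: **(V-val) — `ord_{w_i} (T_ℓ u) = (ℓ+1) · ord_{w_i} (u)`,
`i = 1, 2, 3`, on `K₀(X₀(M' q q))ˣ`**, `q ∤ M'`, `A | q`, `K₀ = ℚ̄^{I_A}`, `ℓ ∤ M' q q` prime.

The three vertical valuations of `F₀ = K₀(X₀(M' q q))` (GATE-L): `w₁ = RwK0` (cusp `∞`),
`w₂ = w₁ ∘ W_{q²}` (`redData2QK0`, Hall Atkin–Lehner), `w₃ = Rw3K0` (cusp `1/(qM')`, `e = q − 1`,
uniformiser `y₃ = j(q²z) − j(z)`).  GATE-L is Hecke-free; instead of expanding `T_ℓ` at the cusp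
`1/(qM')` we use the NORM `Nm : F₀ → K₀(X₀(M' q))` along the degeneracy map `α`:

* `ord₁_nmU`, `ord₂_nmU` : GATE-L's split / inseparable rows (`RowsInst.pi_split`, `pi_insep`) in
  `ord` form: `ord_{w₁'} (Nm x) = ord_{w₁} x + ord_{w₃} x`, `ord_{w₂'} (Nm x) = q · ord_{w₂} x`;
* `hecke_nmU` : `Nm ∘ T_ℓ = T_ℓ ∘ Nm` over `K₀` (`NormComm.normAlong_heckeNormF` + helper17's
  norm square `K₀ → ℚ̄`);
* at the level `M' q` (where `q ∥ M' q`) helper19's `GB/A/HeckeW` + helper73's `ordZ_hecke` apply;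
* `o₁_hecke`, `o₂_hecke`, `o₃_hecke` : **(V-val)**, in helper73's relation form
  (`mapU v₀ = heckeUnits hM (mapU u₀)`).
-/
import Fermat.Agent.GE8.SQ.V.NormComm
import Fermat.Agent.GB.A3.ObHecke
import Fermat.Agent.GL.Final.RowsInst
import Fermat.Agent.GL.Final.NormSquareInst

set_option autoImplicit false
set_option linter.style.haveILetI false
set_option linter.unusedSectionVars false

noncomputable section

namespace Fermat.Agent.GE8.SQ.V.Val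

open HahnSeries ModularCurve IsLocalRing AlgebraicCurve
open Fermat.Agent.S24 Fermat.Agent.GJ.J1 Fermat.Agent.GJ.J1.Val
open Fermat.Agent.GJ.KumGroup Fermat.Agent.GJ.Kum.KumType
open Fermat.Agent.GK.AL Fermat.Agent.GL.AL
open Fermat.Agent.GL.Val.GaussK0 Fermat.Agent.GL.Val.SecondK0 Fermat.Agent.GL.Val.SecondK0Hall
open Fermat.Agent.GL.Val.ThirdK0 Fermat.Agent.GL.W3 Fermat.Agent.GL.W3Table
open Fermat.Agent.GL.MultiVal
open Fermat.Agent.GL.Local.InertiaField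
open Fermat.Agent.Common_helper32
open Fermat.Agent.GB.A3.OrdUnif Fermat.Agent.GB.A3.Nu Fermat.Agent.GB.A3.Ob
open Fermat.Agent.GL.Final.RowsInst

/-! ### generic: `ordZ` and valuations -/

section Generic

variable {F : Type*} [Field F] {V : ValuationSubring F} {ϖ : Fˣ}

/-- `ordZ x = n ↔ |x| = |ϖ|^n` -/
theorem ordZ_eq_iff_valuation (h : IsUnifOf V ϖ) (x : Fˣ) (n : ℤ) :
    ordZ h x = n ↔ V.valuation (x : F) = V.valuation (ϖ : F) ^ n := by
  rw [ordZ_eq_iff, V.mem_unitGroup_iff, Units.val_mul, Units.val_inv_eq_inv_val,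
    Units.val_zpow_eq_zpow_val, map_mul, map_inv₀, map_zpow₀]
  have hpos : V.valuation (ϖ : F) ^ n ≠ 0 := by
    apply zpow_ne_zero
    rw [ne_eq, map_eq_zero]
    exact ϖ.ne_zero
  constructor
  · intro h1
    rw [← mul_inv_eq_one₀ hpos]
    exact h1
  · intro h1
    rw [h1, mul_inv_cancel₀ hpos]

theorem valuation_eq_zpow_ordZ (h : IsUnifOf V ϖ) (x : Fˣ) :
    V.valuation (x : F) = V.valuation (ϖ : F) ^ ordZ h x :=
  (ordZ_eq_iff_valuation h x _).mp rfl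

end Generic

/-! ### the three orders at level `N = M' q q` -/

section Orders

variable (A : ValuationSubring Kb) {M' q : ℕ} [NeZero M'] [NeZero q]
  (hq : q.Prime) (hqM : ¬ q ∣ M') (hA : (q : Kb) ∈ A.nonunits)

include hq hA in
/-- `q` is a uniformiser of `w₂ = w₁ ∘ W_{q²}` over `K₀` (Hall divisor) -/
theorem isUnifOf₂Q :
    IsUnifOf (redData2QK0 A (M' * q * q) (hallDvd_sq M' hq hqM)).Rw (qU A (M' * q * q) hq) := by
  haveI := isDiscreteValuationRing_Rw2QK0 A (M' * q * q) (hallDvd_sq M' hq hqM) hq hA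
  refine isUnifOf_of_dvr ?_ ?_
  · exact algebraMap_mem_nonunits A (M' * q * q)
      (fun a => ((redData2QK0 A (M' * q * q) (hallDvd_sq M' hq hqM)).mem_A_iff a).symm)
      (q0_mem_nonunits' A hA)
  · intro x hx
    exact exists_eq_q_mul₂Q A (M' * q * q) (hallDvd_sq M' hq hqM) hq hA x hx

/-- the tame uniformiser `y₃ = j(q² z) − j(z)` of `w₃` -/
def y3F : F0 A (M' * q * q) :=
  y3K0 A (M' * q * q) q (d' := 1) (by rw [mul_one]; exact ⟨M', by ring⟩) (one_dvd _)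

include hq hqM hA in
theorem isRamified_y3F :
    IsRamified (R0 A) ((q0 A q : R0 A) : K0 A) (Rw3K0 A (M' * q * q) q) (y3F A (M' := M') (q := q))
      (q - 1) := isRamified_R3 A hq hqM hA

include hq hqM hA in
theorem y3F_ne_zero : y3F A (M' := M') (q := q) ≠ 0 :=
  (isRamified_y3F A hq hqM hA).ne_zero (Fermat.Agent.GL.Val.RamK0.isUnif_R0 A hq hA)

/-- `y₃` as a unit of `F₀` -/
def y3U : (F0 A (M' * q * q))ˣ := Units.mk0 (y3F A (M' := M') (q := q)) (y3F_ne_zero A hq hqM hA)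

include hq hqM hA in
/-- `y₃` is a uniformiser of `w₃` over `K₀` -/
theorem isUnifOf₃ : IsUnifOf (Rw3K0 A (M' * q * q) q) (y3U A hq hqM hA) := by
  have hR := isRamified_y3F A hq hqM hA
  haveI : IsDiscreteValuationRing (Rw3K0 A (M' * q * q) q) :=
    isDiscreteValuationRing_Rw3K0 A hq level_eq hqM hA (one_dvd M')
      (by rw [mul_one]; exact ⟨M', by ring⟩) (one_dvd _)
  refine isUnifOf_of_dvr ?_ ?_
  · rw [ValuationSubring.mem_nonunits_iff]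
    exact hR.lt_one
  · intro x hx
    rw [ValuationSubring.mem_nonunits_iff] at hx
    have h1 := hR.gen x hx
    have hy0 : y3F A (M' := M') (q := q) ≠ 0 := y3F_ne_zero A hq hqM hA
    refine ⟨x / y3F A (M' := M') (q := q), ?_, ?_⟩
    · rw [← ValuationSubring.valuation_le_one_iff, map_div₀]
      exact div_le_one_of_le₀ h1 zero_le
    · show x = y3F A (M' := M') (q := q) * (x / y3F A (M' := M') (q := q))
      rw [mul_div_cancel₀ x hy0]

/-- `ord_{w₁}` at level `M' q q` -/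
def o₁ (x : (F0 A (M' * q * q))ˣ) : ℤ := ordZ (isUnifOf₁ A (M' * q * q) hq hA) x

/-- `ord_{w₂}` at level `M' q q` -/
def o₂ (x : (F0 A (M' * q * q))ˣ) : ℤ := ordZ (isUnifOf₂Q A hq hqM hA) x

/-- `ord_{w₃}` at level `M' q q` -/
def o₃ (x : (F0 A (M' * q * q))ˣ) : ℤ := ordZ (isUnifOf₃ A hq hqM hA) x

end Orders

/-! ### the norm rows of GATE-L in `ord` form -/

section Rows

variable (A : ValuationSubring Kb) {M' q : ℕ} [NeZero M'] [NeZero q]
  (hq : q.Prime) (hqM : ¬ q ∣ M') (hA : (q : Kb) ∈ A.nonunits)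

/-- the norm `K₀(X₀(M' q q))ˣ → K₀(X₀(M' q))ˣ` along `α` -/
def nmU : (F0 A (M' * q * q))ˣ →* (F0 A (M' * q))ˣ := Units.map (normAlphaK0 A M' q)

theorem coe_nmU (x : (F0 A (M' * q * q))ˣ) :
    ((nmU A x : (F0 A (M' * q))ˣ) : F0 A (M' * q)) = normAlphaK0 A M' q (x : F0 A (M' * q * q)) :=
  rfl

include hqM in
/-- **split row**: `ord_{w₁'} (Nm x) = ord_{w₁} x + ord_{w₃} x` -/
theorem ord₁_nmU (x : (F0 A (M' * q * q))ˣ) :
    ord₁ A (M' * q) hq hA (nmU A x) = o₁ A hq hA x + o₃ A hq hqM hA x := by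
  unfold ord₁
  rw [ordZ_eq_iff_valuation]
  exact (pi_split A hq hqM hA).2.2.1 (x : F0 A (M' * q * q)) _ _
    (valuation_eq_zpow_ordZ (isUnifOf₁ A (M' * q * q) hq hA) x)
    (valuation_eq_zpow_ordZ (isUnifOf₃ A hq hqM hA) x)

include hqM in
/-- **inseparable row**: `ord_{w₂'} (Nm x) = q · ord_{w₂} x` -/
theorem ord₂_nmU (x : (F0 A (M' * q * q))ˣ) :
    ord₂ A (M' * q) (exactDvd_level hq hqM) hq hA (nmU A x) = (q : ℤ) * o₂ A hq hqM hA x := by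
  unfold ord₂
  rw [ordZ_eq_iff_valuation]
  exact (pi_insep A hq hqM hA).2.1 (x : F0 A (M' * q * q)) _
    (valuation_eq_zpow_ordZ (isUnifOf₂Q A hq hqM hA) x)

end Rows

/-! ### the Hecke norm and the degeneracy norm over `K₀` -/

section Hecke

variable (A : ValuationSubring Kb) {M' q : ℕ} [NeZero M'] [NeZero q]
  (hq : q.Prime) (hqM : ¬ q ∣ M') (hA : (q : Kb) ∈ A.nonunits)
variable {ℓ : ℕ} [Fact ℓ.Prime] [NeZero ℓ] (hℓN : ¬ ℓ ∣ M' * q * q)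
  (hMN : HNMemHyp (M' * q * q) ℓ) (hML : HNMemHyp (M' * q) ℓ)

theorem not_dvd_level (hℓN : ¬ ℓ ∣ M' * q * q) : ¬ ℓ ∣ M' * q :=
  fun h => hℓN (Dvd.dvd.mul_right h q)

/-- the norm square `K₀ → ℚ̄` in `mapK0Bar` form -/
theorem mapK0Bar_normAlphaK0 (x : F0 A (M' * q * q)) :
    mapK0Bar A (M' * q) (normAlphaK0 A M' q x) =
      Fermat.Agent.GJ.HInputs.normAlong (Fermat.Agent.GJ.HN.alphaB (M' * q) q)
        (mapK0Bar A (M' * q * q) x) := by
  have h := Fermat.Agent.GL.Final.TopInst.normSquareA A (M' * q) q x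
  rw [toFN0_eq_mapK0Bar, toFN0_eq_mapK0Bar] at h
  exact h

include hq hℓN in
/-- **`Nm ∘ T_ℓ = T_ℓ ∘ Nm` over `K₀`** (relation form) -/
theorem hecke_nmU (u0 v0 : (F0 A (M' * q * q))ˣ)
    (hv : mapU (M := M' * q * q) A v0 = heckeUnits hMN (mapU (M := M' * q * q) A u0)) :
    mapU (M := M' * q) A (nmU A v0) = heckeUnits hML (mapU (M := M' * q) A (nmU A u0)) := by
  apply Units.ext
  have hv' : mapK0Bar A (M' * q * q) (v0 : F0 A (M' * q * q)) =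
      heckeHom hMN (mapK0Bar A (M' * q * q) (u0 : F0 A (M' * q * q))) :=
    congrArg Units.val hv
  show mapK0Bar A (M' * q) (normAlphaK0 A M' q (v0 : F0 A (M' * q * q))) =
    heckeHom hML (mapK0Bar A (M' * q) (normAlphaK0 A M' q (u0 : F0 A (M' * q * q))))
  rw [mapK0Bar_normAlphaK0, mapK0Bar_normAlphaK0, hv',
    Fermat.Agent.GB.A.HeckeW.heckeHom_eq_heckeNormF hℓN hMN,
    Fermat.Agent.GB.A.HeckeW.heckeHom_eq_heckeNormF (not_dvd_level hℓN) hML,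
    Fermat.Agent.GE8.SQ.V.NormComm.normAlong_heckeNormF (M' * q) q ℓ hq (dvd_mul_left q M')]

include hℓN in
/-- **(V-val)₁** : `ord_{w₁} (T_ℓ u) = (ℓ+1) ord_{w₁} u` -/
theorem o₁_hecke (u0 v0 : (F0 A (M' * q * q))ˣ)
    (hv : mapU (M := M' * q * q) A v0 = heckeUnits hMN (mapU (M := M' * q * q) A u0)) :
    o₁ A hq hA v0 = ((ℓ + 1 : ℕ) : ℤ) * o₁ A hq hA u0 :=
  ordZ_hecke A hq hMN (mem_Rw1K0_iff A (M' * q * q)) (isUnifOf₁ A (M' * q * q) hq hA)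
    (fun _ hu => Fermat.Agent.GB.A.HeckeW.heckeUnits_mem_unitGroup₁ A hMN hu.1 hu.2) u0 v0 hv

include hℓN hqM hML in
/-- **(V-val)₃** : `ord_{w₃} (T_ℓ u) = (ℓ+1) ord_{w₃} u` -/
theorem o₃_hecke (u0 v0 : (F0 A (M' * q * q))ˣ)
    (hv : mapU (M := M' * q * q) A v0 = heckeUnits hMN (mapU (M := M' * q * q) A u0)) :
    o₃ A hq hqM hA v0 = ((ℓ + 1 : ℕ) : ℤ) * o₃ A hq hqM hA u0 := by
  have h1 := o₁_hecke A hq hA hℓN hMN u0 v0 hv
  have h2 : ord₁ A (M' * q) hq hA (nmU A v0) =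
      ((ℓ + 1 : ℕ) : ℤ) * ord₁ A (M' * q) hq hA (nmU A u0) :=
    ordZ_hecke A hq hML (mem_Rw1K0_iff A (M' * q)) (isUnifOf₁ A (M' * q) hq hA)
      (fun _ hu => Fermat.Agent.GB.A.HeckeW.heckeUnits_mem_unitGroup₁ A hML hu.1 hu.2)
      (nmU A u0) (nmU A v0) (hecke_nmU A hq hℓN hMN hML u0 v0 hv)
  rw [ord₁_nmU A hq hqM hA, ord₁_nmU A hq hqM hA] at h2
  linarith

include hℓN hqM hML in
/-- **(V-val)₂** : `ord_{w₂} (T_ℓ u) = (ℓ+1) ord_{w₂} u` -/
theorem o₂_hecke (u0 v0 : (F0 A (M' * q * q))ˣ)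
    (hv : mapU (M := M' * q * q) A v0 = heckeUnits hMN (mapU (M := M' * q * q) A u0)) :
    o₂ A hq hqM hA v0 = ((ℓ + 1 : ℕ) : ℤ) * o₂ A hq hqM hA u0 := by
  have h2 : ord₂ A (M' * q) (exactDvd_level hq hqM) hq hA (nmU A v0) =
      ((ℓ + 1 : ℕ) : ℤ) * ord₂ A (M' * q) (exactDvd_level hq hqM) hq hA (nmU A u0) :=
    ordZ_hecke A hq hML (mem_Rw2K0_iff A (M' * q) (exactDvd_level hq hqM))
      (isUnifOf₂ A (M' * q) (exactDvd_level hq hqM) hq hA)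
      (fun _ hu => Fermat.Agent.GB.A.HeckeW.heckeUnits_mem_unitGroup₂ A (exactDvd_level hq hqM)
        (not_dvd_level hℓN) hML hu.1 hu.2)
      (nmU A u0) (nmU A v0) (hecke_nmU A hq hℓN hMN hML u0 v0 hv)
  rw [ord₂_nmU A hq hqM hA, ord₂_nmU A hq hqM hA] at h2
  have hq0 : (q : ℤ) ≠ 0 := by exact_mod_cast hq.ne_zero
  have h3 : (q : ℤ) * o₂ A hq hqM hA v0 =
      (q : ℤ) * (((ℓ + 1 : ℕ) : ℤ) * o₂ A hq hqM hA u0) := by rw [h2]; ring
  exact mul_left_cancel₀ hq0 h3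

end Hecke

end Fermat.Agent.GE8.SQ.V.Val
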