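/-
GATE-E / E8.SQ / M1 (V) (helper30), file 4: **helper97's two (V)-nodes as THEOREMS**:

* `norm3Stmt : Stmt.Norm3Stmt` — (V) + NORM3: the Eisenstein twist `T_ℓ y − (ℓ+1) y` of an
  `I_A`-invariant class has an `I_A`-fixed representative which is a unit along the three
  components (`T_ℓ u / u^(ℓ+1)`: a 3-unit ON THE NOSE, by (V-val); no normalisation needed);
* `heckeU3Stmt : Stmt3.HeckeU3Stmt` — every integer polynomial in the good Hecke operators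
  preserves the classes having an `I_A`-fixed `IsU3` representative.

Both from `Val.o₁_hecke / o₂_hecke / o₃_hecke` at the level `L' q = M' q q`.
-/
import Fermat.Agent.GE8.SQ.V.Val
import Fermat.Agent.GE8.SQ.Stmt3

set_option autoImplicit false
set_option linter.style.haveILetI false
set_option linter.unusedSectionVars false

noncomputable section

namespace Fermat.Agent.GE8.SQ.V.Norm3

open HahnSeries ModularCurve IsLocalRing AlgebraicCurve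
open Fermat.Agent.S24 Fermat.Agent.GJ.J1 Fermat.Agent.GJ.J1.Val
open Fermat.Agent.GJ.KumGroup Fermat.Agent.GJ.Kum.KumType
open Fermat.Agent.GK.AL Fermat.Agent.GL.AL Fermat.Agent.GK.UQ Fermat.Agent.GK.New
open Fermat.Agent.GK.Tate.KumHecke
open Fermat.Agent.GL.Val.GaussK0 Fermat.Agent.GL.Val.SecondK0 Fermat.Agent.GL.Val.SecondK0Hall
open Fermat.Agent.GL.Val.ThirdK0 Fermat.Agent.GL.W3 Fermat.Agent.GL.W3Table
open Fermat.Agent.GL.Final.GeomGate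
open Fermat.Agent.GB.A Fermat.Agent.GB.A.FP
open Fermat.Agent.GB.A3.OrdUnif Fermat.Agent.GB.A3.Nu Fermat.Agent.GB.A3.Ob
open Fermat.Agent.GE8.SQ.Stmt Fermat.Agent.GE8.SQ.Stmt3 Fermat.Agent.GE8.SQ.V.Val

/-! ### 3-units over `K₀` and over `ℚ̄` -/

section Level

variable (A : ValuationSubring Kb) {M' q : ℕ} [NeZero M'] [NeZero q] [Fact q.Prime]
  (hq : q.Prime) (hqM : ¬ q ∣ M') (hA : (q : Kb) ∈ A.nonunits)

/-- 3-unit over `K₀` -/
def IsU30 (x : (F0 A (M' * q * q))ˣ) : Prop :=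
  o₁ A hq hA x = 0 ∧ o₂ A hq hqM hA x = 0 ∧ o₃ A hq hqM hA x = 0

theorem isU30_mul {x y : (F0 A (M' * q * q))ˣ} (hx : IsU30 A hq hqM hA x)
    (hy : IsU30 A hq hqM hA y) : IsU30 A hq hqM hA (x * y) := by
  obtain ⟨a1, a2, a3⟩ := hx
  obtain ⟨b1, b2, b3⟩ := hy
  refine ⟨?_, ?_, ?_⟩
  · unfold o₁ at *; rw [ordZ_mul, a1, b1, add_zero]
  · unfold o₂ at *; rw [ordZ_mul, a2, b2, add_zero]
  · unfold o₃ at *; rw [ordZ_mul, a3, b3, add_zero]

/-- **the bridge `K₀ → ℚ̄`** for helper97's `IsU3` -/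
theorem isU3_mapU_iff (h : HallDvd (q ^ 2) (M' * q * q)) (x : (F0 A (M' * q * q))ˣ) :
    IsU3 (M' * q) q A h (mapU (M := M' * q * q) A x) ↔ IsU30 A hq hqM hA x := by
  have e1 : IsUnitAt (M' * q) q (redDataBar (M' * q * q) A) (mapU (M := M' * q * q) A x) ↔
      o₁ A hq hA x = 0 := by
    unfold o₁
    rw [ordZ_eq_zero_iff]
    exact unitOf_mapU_iff A (mem_Rw1K0_iff A (M' * q * q)) x
  have e2 : IsUnitAt (M' * q) q (redData2Q (M' * q * q) A h) (mapU (M := M' * q * q) A x) ↔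
      o₂ A hq hqM hA x = 0 := by
    unfold o₂
    rw [ordZ_eq_zero_iff]
    exact unitOf_mapU_iff A (mem_Rw2QK0_iff A (M' * q * q) h) x
  have e3 : IsUnitAt (M' * q) q (redData3 (M' * q * q) A q) (mapU (M := M' * q * q) A x) ↔
      o₃ A hq hqM hA x = 0 := by
    unfold o₃
    rw [ordZ_eq_zero_iff]
    exact unitOf_mapU_iff A (mem_Rw3K0_iff_mapK0Bar A (M' * q * q) q) x
  unfold IsU3 IsU30
  rw [e1, e2, e3]

variable {ℓ : ℕ} [Fact ℓ.Prime] [NeZero ℓ] (hℓN : ¬ ℓ ∣ M' * q * q)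
  (hMN : HNMemHyp (M' * q * q) ℓ) (hML : HNMemHyp (M' * q) ℓ)

include hℓN hML in
/-- `T_ℓ` preserves the 3-units over `K₀` -/
theorem isU30_hecke (u0 v0 : (F0 A (M' * q * q))ˣ)
    (hv : mapU (M := M' * q * q) A v0 = heckeUnits hMN (mapU (M := M' * q * q) A u0))
    (hu : IsU30 A hq hqM hA u0) : IsU30 A hq hqM hA v0 := by
  obtain ⟨a1, a2, a3⟩ := hu
  refine ⟨?_, ?_, ?_⟩
  · rw [o₁_hecke A hq hA hℓN hMN u0 v0 hv, a1, mul_zero]
  · rw [o₂_hecke A hq hqM hA hℓN hMN hML u0 v0 hv, a2, mul_zero]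
  · rw [o₃_hecke A hq hqM hA hℓN hMN hML u0 v0 hv, a3, mul_zero]

include hℓN hML in
/-- the Eisenstein twist `T_ℓ u / u^(ℓ+1)` is a 3-unit over `K₀`, for EVERY `u` -/
theorem isU30_twist (u0 v0 : (F0 A (M' * q * q))ˣ)
    (hv : mapU (M := M' * q * q) A v0 = heckeUnits hMN (mapU (M := M' * q * q) A u0)) :
    IsU30 A hq hqM hA (v0 * (u0 ^ (ℓ + 1))⁻¹) := by
  refine ⟨?_, ?_, ?_⟩
  · have h1 := o₁_hecke A hq hA hℓN hMN u0 v0 hv
    unfold o₁ at *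
    rw [ordZ_mul, ordZ_inv, ordZ_pow, h1]
    ring
  · have h1 := o₂_hecke A hq hqM hA hℓN hMN hML u0 v0 hv
    unfold o₂ at *
    rw [ordZ_mul, ordZ_inv, ordZ_pow, h1]
    ring
  · have h1 := o₃_hecke A hq hqM hA hℓN hMN hML u0 v0 hv
    unfold o₃ at *
    rw [ordZ_mul, ordZ_inv, ordZ_pow, h1]
    ring

/-! ### `I_A`-fixed 3-unit representatives -/

omit [NeZero ℓ] [Fact ℓ.Prime] in
/-- an `I_A`-fixed `IsU3` unit of `F_N` is `mapU` of a 3-unit over `K₀` -/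
theorem exists_isU30_of_fixed (h : HallDvd (q ^ 2) (M' * q * q)) (u : (FK (M' * q * q))ˣ)
    (hfix : ∀ σ ∈ A.inertiaSubgroupIn ℚ, galUnits (M' * q * q) σ u = u)
    (hu : IsU3 (M' * q) q A h u) :
    ∃ u0 : (F0 A (M' * q * q))ˣ, mapU (M := M' * q * q) A u0 = u ∧ IsU30 A hq hqM hA u0 := by
  obtain ⟨u0, hu0⟩ := exists_mapU_of_fixed A u hfix
  refine ⟨u0, hu0, ?_⟩
  rw [← isU3_mapU_iff A hq hqM hA h, hu0]
  exact hu

include hℓN hML hq hqM hA in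
/-- **`T_ℓ` preserves the `I_A`-fixed 3-units of `F_N`** -/
theorem isU3_heckeUnits (h : HallDvd (q ^ 2) (M' * q * q)) (u : (FK (M' * q * q))ˣ)
    (hfix : ∀ σ ∈ A.inertiaSubgroupIn ℚ, galUnits (M' * q * q) σ u = u)
    (hu : IsU3 (M' * q) q A h u) : IsU3 (M' * q) q A h (heckeUnits hMN u) := by
  obtain ⟨u0, hu0, h0⟩ := exists_isU30_of_fixed A hq hqM hA h u hfix hu
  obtain ⟨v0, hv0⟩ := exists_mapU_of_fixed A (heckeUnits hMN u) (heckeUnits_fixed A hMN u hfix)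
  rw [← hv0, isU3_mapU_iff A hq hqM hA h]
  exact isU30_hecke A hq hqM hA hℓN hMN hML u0 v0 (by rw [hv0, hu0]) h0

include hℓN hML hq hqM hA in
/-- **the Eisenstein twist of an `I_A`-fixed unit is a 3-unit** -/
theorem isU3_twist (h : HallDvd (q ^ 2) (M' * q * q)) (u : (FK (M' * q * q))ˣ)
    (hfix : ∀ σ ∈ A.inertiaSubgroupIn ℚ, galUnits (M' * q * q) σ u = u) :
    IsU3 (M' * q) q A h (heckeUnits hMN u * (u ^ (ℓ + 1))⁻¹) := by
  obtain ⟨u0, hu0⟩ := exists_mapU_of_fixed A u hfix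
  obtain ⟨v0, hv0⟩ := exists_mapU_of_fixed A (heckeUnits hMN u) (heckeUnits_fixed A hMN u hfix)
  have e : heckeUnits hMN u * (u ^ (ℓ + 1))⁻¹ =
      mapU (M := M' * q * q) A (v0 * (u0 ^ (ℓ + 1))⁻¹) := by
    rw [map_mul, map_inv, map_pow, hv0, hu0]
  rw [e, isU3_mapU_iff A hq hqM hA h]
  exact isU30_twist A hq hqM hA hℓN hMN hML u0 v0 (by rw [hv0, hu0])

end Level

/-! ### helper97's node `Norm3Stmt` -/

/-- **(V) + NORM3** (`GE8/SQ/Stmt.Norm3Stmt`): every Eisenstein twist of an `I_A`-invariant class has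
an `I_A`-fixed representative which is a unit along the three components. -/
theorem norm3Stmt : Norm3Stmt := by
  intro p _ hp2 L' q _ _ hqp hgood A hA ℓ hℓ hℓM y hy
  obtain ⟨M', rfl⟩ := exists_eq_mul_left_of_dvd hgood.1
  have hq : q.Prime := Fact.out
  haveI : NeZero q := ⟨hq.ne_zero⟩
  haveI : NeZero M' := ⟨fun h0 => NeZero.ne (M' * q) (by rw [h0, zero_mul])⟩
  have hqM : ¬ q ∣ M' := fun hd => hgood.2.1 (by
    obtain ⟨c, rfl⟩ := hd
    exact ⟨c, by ring⟩)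
  haveI : Fact ℓ.Prime := ⟨hℓ⟩
  haveI : NeZero ℓ := ⟨hℓ.ne_zero⟩
  have hMN : HNMemHyp (M' * q * q) ℓ := Fermat.Agent.GJ.Kum.KumGate.hnMemHyp (M' * q * q) hℓ hℓM
  have hD : HNDivHyp (M' * q * q) p ℓ :=
    Fermat.Agent.GJ.Kum.KumGate.hnDivHyp (M' * q * q) p hℓ hℓM
  have hML : HNMemHyp (M' * q) ℓ :=
    Fermat.Agent.GJ.Kum.KumGate.hnMemHyp (M' * q) hℓ (not_dvd_level hℓM)
  obtain ⟨u, rfl, hfix⟩ := exists_fixedRep A p y hy
  refine ⟨⟨heckeUnits hMN u, heckeUnits_mem hMN hD u u.2⟩ * (u ^ (ℓ + 1))⁻¹, ⟨?_, ?_⟩, ?_⟩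
  · have e : kumTl (M' * q * q) p hℓ hℓM (Additive.ofMul (Kum.mk u)) =
        Additive.ofMul (Kum.mk ⟨heckeUnits hMN u, heckeUnits_mem hMN hD u u.2⟩) := rfl
    rw [e, map_mul, map_inv, map_pow, ofMul_mul, ofMul_inv, ofMul_pow, sub_eq_add_neg,
      Nat.cast_smul_eq_nsmul]
  · intro σ hσ
    show galUnits (M' * q * q) σ (heckeUnits hMN (u : (FK (M' * q * q))ˣ) *
      ((u : (FK (M' * q * q))ˣ) ^ (ℓ + 1))⁻¹) = _
    rw [map_mul, map_inv, map_pow, heckeUnits_fixed A hMN _ hfix σ hσ, hfix σ hσ]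
    rfl
  · exact isU3_twist A hq hqM hA hℓM hMN hML _ (u : (FK (M' * q * q))ˣ) hfix

end Fermat.Agent.GE8.SQ.V.Norm3
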