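/-
GATE-E / E8.SQ / (V♯) step (b) (helper30), file 6: **the `(q−1)`-power relation for `red₃ ∘ T_ℓ`**.

`N = M' q q`, `q ∤ M'`, `A | q`, `ℓ ∤ N` prime.  GATE-L is Hecke-free at the cusp `1/(qM')`, so again
the NORM `Nm : K₀(X₀(N)) → K₀(X₀(M' q))` along `α` is used: the split row of `π`
(`RowsInst.pi_split`) gives `red₁'(Nm x) = y₁ · y₃^(q−1)` with `red₁ x = y₁`, `red₃ x = y₃(t^N)`;
`Nm ∘ T_ℓ = T_ℓ ∘ Nm` (`Val.hecke_nmU`) and `red₁ ∘ T_ℓ = T̄_ℓ ∘ red₁` at the levels `N` and `M' q`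
(helper17 `GF.D3.coe_red_heckeHom`) then give

* `pow_eq_K0` : over `K₀`, `(k₀→𝕜)_* Y₃^(q−1) = T̄_ℓ((k₀→𝕜)_* y₃)^(q−1)`;
* **`red3_hecke_pow`** : for an `I_A`-fixed `IsU3` unit `u` of `F_N` : `T_ℓ u` is `IsU3`,
  `red3Ser u = y₃(t^N)`, `red3Ser (T_ℓ u) = Y₃(t^N)`, `Y₃^(q−1) = (T̄_ℓ y₃)^(q−1)` in `𝕜((t))`.
-/
import Fermat.Agent.GE8.SQ.V.Norm3
import Fermat.Agent.GE8.SQ.Stmt3K
import Fermat.Agent.GF.D3.RedHecke

set_option autoImplicit false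
set_option linter.style.haveILetI false
set_option linter.unusedSectionVars false

noncomputable section

namespace Fermat.Agent.GE8.SQ.V.SharpPow

open HahnSeries ModularCurve IsLocalRing AlgebraicCurve
open Fermat.Agent.S24 Fermat.Agent.GJ.J1 Fermat.Agent.GJ.J1.Val
open Fermat.Agent.GJ.Kum Fermat.Agent.GJ.KumGroup Fermat.Agent.GJ.Kum.KumType
open Fermat.Agent.GK.AL Fermat.Agent.GL.AL Fermat.Agent.GK.UQ Fermat.Agent.GK.New
open Fermat.Agent.GK.Tate.KumHecke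
open Fermat.Agent.GL.Val.GaussK0 Fermat.Agent.GL.Val.SecondK0 Fermat.Agent.GL.Val.SecondK0Hall
open Fermat.Agent.GL.Val.ThirdK0 Fermat.Agent.GL.Val.CuspK0 Fermat.Agent.GL.W3 Fermat.Agent.GL.W3Table
open Fermat.Agent.GL.CuspVal
open Fermat.Agent.GL.Final.GeomGate Fermat.Agent.GL.Final.RowsInst
open Fermat.Agent.GB.A Fermat.Agent.GB.A.FP
open Fermat.Agent.GB.A3.OrdUnif Fermat.Agent.GB.A3.Nu Fermat.Agent.GB.A3.Ob
open Fermat.Agent.GE8.SQ.Stmt Fermat.Agent.GE8.SQ.Stmt3 Fermat.Agent.GE8.SQ.Stmt3K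
open Fermat.Agent.GE8.SQ.V.Val Fermat.Agent.GE8.SQ.V.Norm3
open Fermat.Agent.Common_helper32

section Level

variable (A : ValuationSubring Kb) {M' q : ℕ} [NeZero M'] [NeZero q] [Fact q.Prime]
  (hq : q.Prime) (hqM : ¬ q ∣ M') (hA : (q : Kb) ∈ A.nonunits)
variable {ℓ : ℕ} [Fact ℓ.Prime] [NeZero ℓ] (hℓN : ¬ ℓ ∣ M' * q * q)
  (hMN : HNMemHyp (M' * q * q) ℓ) (hML : HNMemHyp (M' * q) ℓ)

local notation "k₀" => ResidueField (R0 A)
local notation "𝕜" => ResidueField A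

/-- `red₁ (T_ℓ x) = T̄_ℓ (red₁ x)` for `K₀`-rational `x`, pushed to `𝕜((t))` -/
theorem coeffMap_red1K0_hecke {L : ℕ} [NeZero L] (hM : HNMemHyp L ℓ)
    (x y : modularFunctionFieldFullC (K0 A) L)
    (hxy : mapK0Bar A L y = heckeHom hM (mapK0Bar A L x))
    (hx : x ∈ RwK0 A L) (hy : y ∈ RwK0 A L) :
    coeffMap (resMapK0 A) (((redDataK0 A L).red ⟨y, hy⟩ : FresK0 A L) : LaurentSeries k₀) =
      heckeNorm ℓ (coeffMap (resMapK0 A)
        (((redDataK0 A L).red ⟨x, hx⟩ : FresK0 A L) : LaurentSeries k₀)) := by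
  have hx' : mapK0Bar A L x ∈ (redDataBar L A).Rw := (mem_Rw1K0_iff A L x).1 hx
  have hy' : mapK0Bar A L y ∈ (redDataBar L A).Rw := (mem_Rw1K0_iff A L y).1 hy
  rw [← coe_red1K0 A L x hx hx', ← coe_red1K0 A L y hy hy']
  rw [← Fermat.Agent.GF.D3.coe_red_heckeHom A hM hx']
  congr 3

include hq hqM hℓN hML in
/-- **the `(q−1)`-power relation over `K₀`** -/
theorem pow_eq_K0 (u0 v0 : (F0 A (M' * q * q))ˣ)
    (hv : mapU (M := M' * q * q) A v0 = heckeUnits hMN (mapU (M := M' * q * q) A u0))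
    (h1 : (u0 : F0 A (M' * q * q)) ∈ RwK0 A (M' * q * q))
    (h1' : ((u0⁻¹ : (F0 A (M' * q * q))ˣ) : F0 A (M' * q * q)) ∈ RwK0 A (M' * q * q))
    (h3 : (u0 : F0 A (M' * q * q)) ∈ Rw3K0 A (M' * q * q) q)
    (g1 : (v0 : F0 A (M' * q * q)) ∈ RwK0 A (M' * q * q))
    (g3 : (v0 : F0 A (M' * q * q)) ∈ Rw3K0 A (M' * q * q) q) :
    ∃ y3 Y3 : FresK0 A (M' * q),
      fres3Old A hq hA y3 = (redData3K0 A (M' * q * q) q hq hA).red ⟨(u0 : F0 A (M' * q * q)), h3⟩ ∧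
      fres3Old A hq hA Y3 = (redData3K0 A (M' * q * q) q hq hA).red ⟨(v0 : F0 A (M' * q * q)), g3⟩ ∧
      coeffMap (resMapK0 A) (Y3 : LaurentSeries k₀) ^ (q - 1) =
        heckeNorm ℓ (coeffMap (resMapK0 A) (y3 : LaurentSeries k₀)) ^ (q - 1) := by
  obtain ⟨hN, y1, y3, e1, e3, eN⟩ :=
    (pi_split A hq hqM hA).2.2.2 (u0 : F0 A (M' * q * q)) h1 h3
  obtain ⟨gN, Y1, Y3, f1, f3, fN⟩ :=
    (pi_split A hq hqM hA).2.2.2 (v0 : F0 A (M' * q * q)) g1 g3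
  refine ⟨y3, Y3, e3, f3, ?_⟩
  -- the relation `v0 = T u0` in `mapK0Bar` form, at both levels
  have hv' : mapK0Bar A (M' * q * q) (v0 : F0 A (M' * q * q)) =
      heckeHom hMN (mapK0Bar A (M' * q * q) (u0 : F0 A (M' * q * q))) :=
    congrArg Units.val hv
  have hnm : mapK0Bar A (M' * q) (normAlphaK0 A M' q (v0 : F0 A (M' * q * q))) =
      heckeHom hML (mapK0Bar A (M' * q) (normAlphaK0 A M' q (u0 : F0 A (M' * q * q)))) :=
    congrArg Units.val (hecke_nmU A hq hℓN hMN hML u0 v0 hv)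
  -- reductions
  have r1 := coeffMap_red1K0_hecke A hMN _ _ hv' h1 g1
  have rN := coeffMap_red1K0_hecke A hML _ _ hnm hN gN
  rw [eN, fN] at rN
  have c1 : coeffMap (resMapK0 A) (Y1 : LaurentSeries k₀) =
      heckeNorm ℓ (coeffMap (resMapK0 A) (y1 : LaurentSeries k₀)) := by
    rw [← e1, ← f1] at r1
    rw [Fermat.Agent.GL.Table.K0.coe_fresInclC, Fermat.Agent.GL.Table.K0.coe_fresInclC] at r1
    exact r1
  have hy1 : coeffMap (resMapK0 A) (y1 : LaurentSeries k₀) ≠ 0 := by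
    intro h0
    have hy0 : (y1 : LaurentSeries k₀) = 0 :=
      Fermat.Agent.GK.Val.BaseChange.coeffMap_injective _ (resMapK0 A).injective
        (h0.trans (map_zero _).symm)
    have hy0' : y1 = 0 := Subtype.ext hy0
    have hm : (redDataK0 A (M' * q * q)).red ⟨(u0 : F0 A (M' * q * q)), h1⟩ *
        (redDataK0 A (M' * q * q)).red
          ⟨((u0⁻¹ : (F0 A (M' * q * q))ˣ) : F0 A (M' * q * q)), h1'⟩ = 1 := by
      rw [← map_mul]
      have h11 : ((⟨(u0 : F0 A (M' * q * q)), h1⟩ : (redDataK0 A (M' * q * q)).Rw) *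
          ⟨((u0⁻¹ : (F0 A (M' * q * q))ˣ) : F0 A (M' * q * q)), h1'⟩) = 1 :=
        Subtype.ext (by simp)
      rw [h11, map_one]
    rw [← e1, hy0', map_zero, zero_mul] at hm
    exact zero_ne_one hm
  have hT1 : heckeNorm ℓ (coeffMap (resMapK0 A) (y1 : LaurentSeries k₀)) ≠ 0 :=
    Fermat.Agent.GB.A.A5.HeckeKerRed.heckeNorm_ne_zero' ℓ hy1
  have e : ((Y1 * Y3 ^ (q - 1) : FresK0 A (M' * q)) : LaurentSeries k₀) =
      (Y1 : LaurentSeries k₀) * (Y3 : LaurentSeries k₀) ^ (q - 1) := rfl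
  have e' : ((y1 * y3 ^ (q - 1) : FresK0 A (M' * q)) : LaurentSeries k₀) =
      (y1 : LaurentSeries k₀) * (y3 : LaurentSeries k₀) ^ (q - 1) := rfl
  rw [e, e', map_mul, map_mul, map_pow, map_pow, heckeNorm_mul, heckeNorm_pow, c1] at rN
  exact mul_left_cancel₀ hT1 rN

/-- the third reduction of a `K₀`-rational unit, computed over `K₀` -/
theorem red3Ser_mapU (x0 : (F0 A (M' * q * q))ˣ)
    (h3 : (x0 : F0 A (M' * q * q)) ∈ Rw3K0 A (M' * q * q) q)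
    (hx : ((mapU (M := M' * q * q) A x0 : (FK (M' * q * q))ˣ) : FK (M' * q * q)) ∈
      (redData3 (M' * q * q) A q).Rw) :
    red3Ser A (mapU (M := M' * q * q) A x0) hx =
      coeffMap (resMapK0 A)
        (((redData3K0 A (M' * q * q) q hq hA).red ⟨(x0 : F0 A (M' * q * q)), h3⟩ :
          Fres3K0 A (M' * q * q) q hq hA) : LaurentSeries k₀) := by
  have hx'' : toFN0 A (M' * q * q) (x0 : F0 A (M' * q * q)) ∈
      (redDataCusp (M' * q * q) A (cusp3 (M' * q * q) q)).Rw := by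
    rw [toFN0_eq_mapK0Bar]; exact hx
  have h7 := coeffMap_resMapK0_coe_red A (M' * q * q) (cusp3 (M' * q * q) q) hq hA
    (x0 : F0 A (M' * q * q)) h3 hx''
  have h8 : (⟨toFN0 A (M' * q * q) (x0 : F0 A (M' * q * q)), hx''⟩ :
      (redDataCusp (M' * q * q) A (cusp3 (M' * q * q) q)).Rw) =
      (⟨((mapU (M := M' * q * q) A x0 : (FK (M' * q * q))ˣ) : FK (M' * q * q)), hx⟩ :
        (redData3 (M' * q * q) A q).Rw) :=
    Subtype.ext (toFN0_eq_mapK0Bar A (M' * q * q) (x0 : F0 A (M' * q * q)))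
  rw [h8] at h7
  exact h7.symm

include hq hqM hA hℓN hML in
/-- **step (b) of (V♯)**: for an `I_A`-fixed 3-unit `u` of `F_{M' q q}`, the third reductions of `u`
and of `T_ℓ u` are `y₃(t^N)`, `Y₃(t^N)` with `Y₃^(q−1) = (T̄_ℓ y₃)^(q−1)` in `𝕜((t))`. -/
theorem red3_hecke_pow (h : HallDvd (q ^ 2) (M' * q * q)) (u : (FK (M' * q * q))ˣ)
    (hfix : ∀ σ ∈ A.inertiaSubgroupIn ℚ, galUnits (M' * q * q) σ u = u)
    (hu : IsU3 (M' * q) q A h u) :
    ∃ (hX : IsU3 (M' * q) q A h (heckeUnits hMN u)) (y3 Y3 : LaurentSeries 𝕜),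
      red3Ser A u hu.2.2.1 = qExpand 𝕜 (M' * q * q) y3 ∧
      red3Ser A (heckeUnits hMN u) hX.2.2.1 = qExpand 𝕜 (M' * q * q) Y3 ∧
      Y3 ^ (q - 1) = heckeNorm ℓ y3 ^ (q - 1) := by
  have hX : IsU3 (M' * q) q A h (heckeUnits hMN u) :=
    isU3_heckeUnits A hq hqM hA hℓN hMN hML h u hfix hu
  obtain ⟨u0, hu0⟩ := exists_mapU_of_fixed A u hfix
  obtain ⟨v0, hv0⟩ := exists_mapU_of_fixed A (heckeUnits hMN u) (heckeUnits_fixed A hMN u hfix)
  subst hu0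
  have h1 : (u0 : F0 A (M' * q * q)) ∈ RwK0 A (M' * q * q) :=
    (mem_Rw1K0_iff A (M' * q * q) _).2 hu.1.1
  have h1' : ((u0⁻¹ : (F0 A (M' * q * q))ˣ) : F0 A (M' * q * q)) ∈ RwK0 A (M' * q * q) := by
    refine (mem_Rw1K0_iff A (M' * q * q) _).2 ?_
    have := hu.1.2
    rw [← map_inv] at this
    exact this
  have h3 : (u0 : F0 A (M' * q * q)) ∈ Rw3K0 A (M' * q * q) q :=
    (mem_Rw3K0_iff_mapK0Bar A (M' * q * q) q _).2 hu.2.2.1
  have g1 : (v0 : F0 A (M' * q * q)) ∈ RwK0 A (M' * q * q) := by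
    refine (mem_Rw1K0_iff A (M' * q * q) _).2 ?_
    have := hX.1.1
    rw [← hv0] at this
    exact this
  have g3 : (v0 : F0 A (M' * q * q)) ∈ Rw3K0 A (M' * q * q) q := by
    refine (mem_Rw3K0_iff_mapK0Bar A (M' * q * q) q _).2 ?_
    have := hX.2.2.1
    rw [← hv0] at this
    exact this
  obtain ⟨y3, Y3, e3, f3, epow⟩ := pow_eq_K0 A hq hqM hA hℓN hMN hML u0 v0 hv0 h1 h1' h3 g1 g3
  refine ⟨hX, coeffMap (resMapK0 A) (y3 : LaurentSeries k₀),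
    coeffMap (resMapK0 A) (Y3 : LaurentSeries k₀), ?_, ?_, epow⟩
  · rw [red3Ser_mapU A hq hA u0 h3, ← e3, coe_fres3Old, coeffMap_qExpand]
  · have hx : ((mapU (M := M' * q * q) A v0 : (FK (M' * q * q))ˣ) : FK (M' * q * q)) ∈
        (redData3 (M' * q * q) A q).Rw := by
      rw [hv0]; exact hX.2.2.1
    have e : red3Ser A (heckeUnits hMN (mapU (M := M' * q * q) A u0)) hX.2.2.1 =
        red3Ser A (mapU (M := M' * q * q) A v0) hx := by
      congr 1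
      exact hv0.symm
    rw [e, red3Ser_mapU A hq hA v0 g3, ← f3, coe_fres3Old, coeffMap_qExpand]

end Level

end Fermat.Agent.GE8.SQ.V.SharpPow
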