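/-
GATE-E / E8.SQ / M1 (V) (helper30), file 5: **`heckeU3Stmt : Stmt3.HeckeU3Stmt`** — every integer
polynomial in the good Hecke operators preserves the classes of `Kum_p(F_{L' q})` having an
`I_A`-fixed representative which is a unit along the three components.

The classes with such a representative form a subgroup (`hasU3Rep_zero/add/neg/zsmul`), stable under
every `kumTl` (`Norm3.isU3_heckeUnits`); `MvPolynomial` induction does the rest.
-/
import Fermat.Agent.GE8.SQ.V.Norm3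

set_option autoImplicit false
set_option linter.style.haveILetI false
set_option linter.unusedSectionVars false

noncomputable section

namespace Fermat.Agent.GE8.SQ.V.HeckeU3

open HahnSeries ModularCurve IsLocalRing AlgebraicCurve
open Fermat.Agent.S24 Fermat.Agent.GJ.J1 Fermat.Agent.GJ.J1.Val
open Fermat.Agent.GJ.KumGroup Fermat.Agent.GJ.Kum.KumType
open Fermat.Agent.GK.AL Fermat.Agent.GL.AL Fermat.Agent.GK.UQ Fermat.Agent.GK.New
open Fermat.Agent.GK.Tate.KumHecke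
open Fermat.Agent.GL.Final.GeomGate
open Fermat.Agent.GB.A Fermat.Agent.GB.A.FP
open Fermat.Agent.GB.A3.Ob
open Fermat.Agent.GE8.SQ.Stmt Fermat.Agent.GE8.SQ.Stmt3 Fermat.Agent.GE8.SQ.V.Val
open Fermat.Agent.GE8.SQ.V.Norm3

/-! ### `IsU3` is a subgroup condition -/

section Group

variable {L' q : ℕ} [NeZero L'] [Fact q.Prime] (A : ValuationSubring Kb)
  (h : HallDvd (q ^ 2) (L' * q)) (m : ℕ)

omit [NeZero L'] [Fact q.Prime] in
theorem isUnitAt_iff {k Ft : Type*} [Field k] [Field Ft] [Algebra k Ft]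
    (R : Fermat.Agent.GJ.J1.RedData Kb (FK (L' * q)) k Ft) (u : (FK (L' * q))ˣ) :
    IsUnitAt L' q R u ↔ u ∈ R.Rw.unitGroup :=
  unitOf_iff_mem_unitGroup R.Rw u

omit [NeZero L'] [Fact q.Prime] in
theorem isUnitAt_one {k Ft : Type*} [Field k] [Field Ft] [Algebra k Ft]
    (R : Fermat.Agent.GJ.J1.RedData Kb (FK (L' * q)) k Ft) : IsUnitAt L' q R 1 :=
  (isUnitAt_iff R 1).mpr (one_mem _)

omit [NeZero L'] [Fact q.Prime] in
theorem isUnitAt_mul {k Ft : Type*} [Field k] [Field Ft] [Algebra k Ft]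
    (R : Fermat.Agent.GJ.J1.RedData Kb (FK (L' * q)) k Ft) {u v : (FK (L' * q))ˣ}
    (hu : IsUnitAt L' q R u) (hv : IsUnitAt L' q R v) : IsUnitAt L' q R (u * v) :=
  (isUnitAt_iff R _).mpr (mul_mem ((isUnitAt_iff R u).mp hu) ((isUnitAt_iff R v).mp hv))

omit [NeZero L'] [Fact q.Prime] in
theorem isUnitAt_inv {k Ft : Type*} [Field k] [Field Ft] [Algebra k Ft]
    (R : Fermat.Agent.GJ.J1.RedData Kb (FK (L' * q)) k Ft) {u : (FK (L' * q))ˣ}
    (hu : IsUnitAt L' q R u) : IsUnitAt L' q R u⁻¹ :=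
  (isUnitAt_iff R _).mpr (inv_mem ((isUnitAt_iff R u).mp hu))

theorem isU3_one : IsU3 L' q A h 1 :=
  ⟨isUnitAt_one _, isUnitAt_one _, isUnitAt_one _⟩

theorem isU3_mul {u v : (FK (L' * q))ˣ} (hu : IsU3 L' q A h u) (hv : IsU3 L' q A h v) :
    IsU3 L' q A h (u * v) :=
  ⟨isUnitAt_mul _ hu.1 hv.1, isUnitAt_mul _ hu.2.1 hv.2.1, isUnitAt_mul _ hu.2.2 hv.2.2⟩

theorem isU3_inv {u : (FK (L' * q))ˣ} (hu : IsU3 L' q A h u) : IsU3 L' q A h u⁻¹ :=
  ⟨isUnitAt_inv _ hu.1, isUnitAt_inv _ hu.2.1, isUnitAt_inv _ hu.2.2⟩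

/-! ### the classes with an `I_A`-fixed `IsU3` representative -/

theorem hasU3Rep_zero : HasU3Rep A h m (0 : Additive (Kum Kb (FK (L' * q)) m)) := by
  refine ⟨1, ⟨?_, ?_⟩, ?_⟩
  · rw [map_one]; rfl
  · intro σ _
    rw [OneMemClass.coe_one, map_one]
  · rw [OneMemClass.coe_one]
    exact isU3_one A h

theorem hasU3Rep_add {y z : Additive (Kum Kb (FK (L' * q)) m)} (hy : HasU3Rep A h m y)
    (hz : HasU3Rep A h m z) : HasU3Rep A h m (y + z) := by
  obtain ⟨u, ⟨rfl, hfu⟩, hu⟩ := hy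
  obtain ⟨v, ⟨rfl, hfv⟩, hv⟩ := hz
  refine ⟨u * v, ⟨?_, ?_⟩, ?_⟩
  · rw [map_mul, ofMul_mul]
  · intro σ hσ
    rw [Subgroup.coe_mul, map_mul, hfu σ hσ, hfv σ hσ]
  · rw [Subgroup.coe_mul]
    exact isU3_mul A h hu hv

theorem hasU3Rep_neg {y : Additive (Kum Kb (FK (L' * q)) m)} (hy : HasU3Rep A h m y) :
    HasU3Rep A h m (-y) := by
  obtain ⟨u, ⟨rfl, hfu⟩, hu⟩ := hy
  refine ⟨u⁻¹, ⟨?_, ?_⟩, ?_⟩
  · rw [map_inv, ofMul_inv]
  · intro σ hσ
    rw [Subgroup.coe_inv, map_inv, hfu σ hσ]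
  · rw [Subgroup.coe_inv]
    exact isU3_inv A h hu

/-- the subgroup of the classes with an `I_A`-fixed `IsU3` representative -/
def u3Sub : AddSubgroup (Additive (Kum Kb (FK (L' * q)) m)) where
  carrier := {y | HasU3Rep A h m y}
  zero_mem' := hasU3Rep_zero A h m
  add_mem' := fun hy hz => hasU3Rep_add A h m hy hz
  neg_mem' := fun hy => hasU3Rep_neg A h m hy

theorem mem_u3Sub {y : Additive (Kum Kb (FK (L' * q)) m)} :
    y ∈ u3Sub A h m ↔ HasU3Rep A h m y := Iff.rfl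

end Group

/-! ### stability under the Hecke operators -/

section Hecke

variable (A : ValuationSubring Kb) {M' q : ℕ} [NeZero M'] [NeZero q] [Fact q.Prime]
  (hq : q.Prime) (hqM : ¬ q ∣ M') (hA : (q : Kb) ∈ A.nonunits)
  (h : HallDvd (q ^ 2) (M' * q * q)) (m : ℕ)

include hq hqM hA in
/-- **`T_ℓ` preserves the classes with an `I_A`-fixed `IsU3` representative** -/
theorem kumTl_mem_u3Sub {ℓ : ℕ} (hℓ : ℓ.Prime) (hℓN : ¬ ℓ ∣ M' * q * q)
    {y : Additive (Kum Kb (FK (M' * q * q)) m)} (hy : y ∈ u3Sub (L' := M' * q) A h m) :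
    kumTl (M' * q * q) m hℓ hℓN y ∈ u3Sub (L' := M' * q) A h m := by
  haveI : Fact ℓ.Prime := ⟨hℓ⟩
  haveI : NeZero ℓ := ⟨hℓ.ne_zero⟩
  have hMN : HNMemHyp (M' * q * q) ℓ := Fermat.Agent.GJ.Kum.KumGate.hnMemHyp (M' * q * q) hℓ hℓN
  have hD : HNDivHyp (M' * q * q) m ℓ :=
    Fermat.Agent.GJ.Kum.KumGate.hnDivHyp (M' * q * q) m hℓ hℓN
  have hML : HNMemHyp (M' * q) ℓ :=
    Fermat.Agent.GJ.Kum.KumGate.hnMemHyp (M' * q) hℓ (not_dvd_level hℓN)
  obtain ⟨u, ⟨rfl, hfu⟩, hu⟩ := hy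
  refine ⟨⟨heckeUnits hMN u, heckeUnits_mem hMN hD u u.2⟩, ⟨rfl, ?_⟩, ?_⟩
  · exact heckeUnits_fixed A hMN _ hfu
  · exact isU3_heckeUnits A hq hqM hA hℓN hMN hML h _ hfu hu

include hq hqM hA in
/-- **every integer polynomial in the good Hecke operators preserves them** -/
theorem kumHecke_aeval_mem_u3Sub [NeZero m] {S : Finset ℕ}
    (hMS : ∀ r : ℕ, r.Prime → r ∣ M' * q * q → r ∈ S) {ζ : ℂ} (hζ : IsPrimitiveRoot ζ m)
    (P : MvPolynomial (PrimeIdx S) ℤ) :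
    ∀ y ∈ u3Sub (L' := M' * q) A h m,
      kumHecke (M' * q * q) (↑S : Set ℕ) m hζ (MvPolynomial.aeval (TfamH hMS) P) y ∈
        u3Sub (L' := M' * q) A h m := by
  induction P using MvPolynomial.induction_on with
  | C a =>
    intro y hy
    rw [MvPolynomial.aeval_C,
      eq_intCast (algebraMap ℤ (CuspForm.heckeAlgebra (M' * q * q) 2 (↑S : Set ℕ))) a, map_intCast,
      Module.End.intCast_apply]
    exact (u3Sub (L' := M' * q) A h m).zsmul_mem hy a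
  | add P Q hP hQ =>
    intro y hy
    rw [map_add, map_add, LinearMap.add_apply]
    exact (u3Sub (L' := M' * q) A h m).add_mem (hP y hy) (hQ y hy)
  | mul_X P i hP =>
    intro y hy
    rw [map_mul, map_mul, MvPolynomial.aeval_X, Module.End.mul_apply, kumHecke_TfamH]
    exact hP _ (kumTl_mem_u3Sub A hq hqM hA h m i.2.1 _ hy)

end Hecke

/-! ### helper97's node `HeckeU3Stmt` -/

/-- **(V-val), closed form** (`GE8/SQ/Stmt3.HeckeU3Stmt`). -/
theorem heckeU3Stmt : HeckeU3Stmt := by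
  intro p _ hp2 L' q _ _ hqp hgood A hA S hMS hpS P ζ hζ y hy
  obtain ⟨M', rfl⟩ := exists_eq_mul_left_of_dvd hgood.1
  have hq : q.Prime := Fact.out
  haveI : NeZero q := ⟨hq.ne_zero⟩
  haveI : NeZero M' := ⟨fun h0 => NeZero.ne (M' * q) (by rw [h0, zero_mul])⟩
  haveI : NeZero p := ⟨(Fact.out : p.Prime).ne_zero⟩
  have hqM : ¬ q ∣ M' := fun hd => hgood.2.1 (by
    obtain ⟨c, rfl⟩ := hd
    exact ⟨c, by ring⟩)
  exact kumHecke_aeval_mem_u3Sub A hq hqM hA _ p hMS hζ P y hy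

end Fermat.Agent.GE8.SQ.V.HeckeU3
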