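/-
GATE-E (S59) / block E8 / node E8.SQ, leaf (V♯), the TAIL (helper21; steps (c)+(d) of helper97's
plan of `V/Sharp.lean`).

Level `N = M' q q` literal, `q ∤ M'`, `A ∣ q`, `K₀ = ℚ̄^{I_A}`, `F₀ = K₀(X₀(N))`, `k₀` the residue
field of `R₀ = A ∩ K₀`.  INPUT (hypothesis form, whatever produces it — the norm row `hπ13` +
`NormComm` in helper97's route): a `K₀`-rational unit along the three components `u' = mapK0Bar X₀`
and `Z ∈ k₀(X₀(M'))`, `Z ≠ 0`, with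

    `(red₃^{K₀} X₀) ^ (q - 1) = (Z(t^N)) ^ (m (q - 1))`     in `k₀((t))`.

OUTPUT: `Stmt3K.IsPow3 A h m u'` (so the class of `u'` lies in `K3fix`).

* `exists_const_of_pow_eq_one` : a root of unity of `k((t))`, `k` algebraically closed, is a constant;
* `exists_eq_pow_of_pow_eq`    : `S^(q-1) = W^(m (q-1))`, `W ≠ 0`  ⟹  `S = (c' W)^m`, `c' ∈ kˣ`;
* `isPow3_of_pow_eq`, `mem_K3fix_of_pow_eq`  (`K₀`-level input);
* `PowHyp`  : the `ℚ̄`-level input = OUTPUT SHAPE of helper30's `V/SharpPow.red3_hecke_pow` (with bare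
              series `y3 Y3`): for an `I_A`-fixed three-unit `u`, `T_ℓ u` is a three-unit,
              `red₃ u = y3(t^N)`, `red₃ (T_ℓ u) = Y3(t^N)`, `Y3^(q-1) = (T̄_ℓ y3)^(q-1)`;
* `isPow3_heckeUnits` : `PowHyp` ⟹ `T_ℓ` preserves `IsPow3`
              (`y3 = H^m`, `Y3 = ζ (T̄ H)^m`, `ζ` a constant `= c^m`, `T̄ H ∈ FresBar M' A` because
              `H = red ĥ` and `T̄ (red ĥ) = red (T_ℓ ĥ)` at the good level `M'`);
* **`vSharp_of_powHyp`, `vSharpStmt_of_powHyp`** : `PowHyp` at every good `ℓ` ⟹ `Stmt3K.VSharp(Stmt)`.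
-/
import Mathlib
import Fermat.Agent.GE8.SQ.ApproxSharpK
import Fermat.Agent.GE8.SQ.V.HeckeU3
import Fermat.Agent.GF.D3.RedHecke

set_option autoImplicit false
set_option linter.unusedSectionVars false

noncomputable section

namespace Fermat.Agent.GE8.SQ.V.SharpTail

open AlgebraicCurve ModularCurve IsLocalRing HahnSeries
open Fermat.Agent.S24 Fermat.Agent.S24_helper62
open Fermat.Agent.GJ Fermat.Agent.GJ.KumGroup Fermat.Agent.GJ.Kum.KumType
open Fermat.Agent.GJ.J1 Fermat.Agent.GJ.J1.Val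
open Fermat.Agent.GK.AL Fermat.Agent.GK.MultiVal Fermat.Agent.GK.UqKronecker
open Fermat.Agent.GB.A
open Fermat.Agent.GL.AL Fermat.Agent.GL.W3 Fermat.Agent.GL.CuspVal
open Fermat.Agent.GL.Val.GaussK0 Fermat.Agent.GL.Val.SecondK0 Fermat.Agent.GL.Val.SecondK0Hall
open Fermat.Agent.GL.Val.ThirdK0 Fermat.Agent.GL.Val.CuspK0 Fermat.Agent.GL.Val.CuspCoeff
open Fermat.Agent.GK.Val.BaseChange
open Fermat.Agent.GE8.SQ.Stmt Fermat.Agent.GE8.SQ.Stmt3K
open Fermat.Agent.Common_helper32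

/-! ### roots of unity of `k((t))` -/

section Series

variable {k : Type*} [Field k] [IsAlgClosed k]

/-- a root of unity of `k((t))`, `k` algebraically closed, is a constant. -/
theorem exists_const_of_pow_eq_one {n : ℕ} (hn : 0 < n) (y : LaurentSeries k) (hy : y ^ n = 1) :
    ∃ c : k, y = algebraMap k (LaurentSeries k) c := by
  have hint : IsIntegral k y := by
    refine ⟨Polynomial.X ^ n - Polynomial.C 1, Polynomial.monic_X_pow_sub_C (1 : k) hn.ne', ?_⟩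
    rw [Polynomial.eval₂_sub, Polynomial.eval₂_pow, Polynomial.eval₂_X, Polynomial.eval₂_C, hy,
      map_one, sub_self]
  have hdeg := IsAlgClosed.degree_eq_one_of_irreducible k (minpoly.irreducible hint)
  obtain ⟨c, hc⟩ := minpoly.mem_range_of_degree_eq_one k y hdeg
  exact ⟨c, hc.symm⟩

/-- `S ^ e = W ^ (m e)`, `W ≠ 0`, `e, m > 0`  ⟹  `S = (c' W) ^ m` with `c'` a nonzero constant. -/
theorem exists_eq_pow_of_pow_eq {e m : ℕ} (he : 0 < e) (hm : 0 < m) {S W : LaurentSeries k}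
    (hW : W ≠ 0) (h : S ^ e = W ^ (m * e)) :
    ∃ c' : k, c' ≠ 0 ∧ S = (algebraMap k (LaurentSeries k) c' * W) ^ m := by
  have hWm : W ^ m ≠ 0 := pow_ne_zero _ hW
  have h1 : (S / W ^ m) ^ e = 1 := by
    rw [div_pow, h, ← pow_mul, div_self (pow_ne_zero _ hW)]
  obtain ⟨c, hc⟩ := exists_const_of_pow_eq_one he _ h1
  have hS : S = algebraMap k (LaurentSeries k) c * W ^ m := by
    rw [← hc, div_mul_cancel₀ _ hWm]
  have hc0 : c ≠ 0 := by
    rintro rfl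
    rw [map_zero, zero_mul] at hS
    rw [hS, zero_pow he.ne'] at h
    exact pow_ne_zero _ hW h.symm
  obtain ⟨c', hc'⟩ := IsAlgClosed.exists_pow_nat_eq c hm
  refine ⟨c', ?_, ?_⟩
  · rintro rfl
    rw [zero_pow hm.ne'] at hc'
    exact hc0 hc'.symm
  · rw [hS, ← hc', map_pow, mul_pow]

end Series

/-! ### the tail of (V♯) -/

section Tail

variable {M' q : ℕ} [NeZero M'] [Fact q.Prime] {A : ValuationSubring Kb}

local notation "N" => M' * q * q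
local notation "F₀" => modularFunctionFieldFullC (K0 A) (M' * q * q)
local notation "k₀" => ResidueField (R0 A)
local notation "𝕜" => ResidueField A

/-- **the tail of (V♯)**: a `K₀`-rational unit along the three components whose third `K₀`-level
reduction `S` satisfies `S^(q-1) = (Z(t^N))^(m (q-1))`, `Z ∈ k₀(X₀(M'))` nonzero, is `IsPow3`. -/
theorem isPow3_of_pow_eq (hqM : ¬ q ∣ M') (hA : (q : Kb) ∈ A.nonunits)
    (h : HallDvd (q ^ 2) (M' * q * q)) {m : ℕ} (hm : 0 < m)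
    (X₀ : F₀) (u' : (FK N)ˣ) (hmap : mapK0Bar A N X₀ = ((u' : (FK N)ˣ) : FK N))
    (hU : IsU3 (M' * q) q A h u')
    {Z : LaurentSeries k₀} (hZ : Z ∈ modularFunctionFieldFullC k₀ M') (hZ0 : Z ≠ 0)
    (hx : X₀ ∈ (redData3K0 A N q Fact.out hA).Rw)
    (e : (((redData3K0 A N q Fact.out hA).red ⟨X₀, hx⟩ : Fres3K0 A N q Fact.out hA) :
        LaurentSeries k₀) ^ (q - 1) = (qExpand k₀ N Z) ^ (m * (q - 1))) :
    IsPow3 A h m u' := by
  have hq : q.Prime := Fact.out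
  have : IsAlgClosed k₀ := isAlgClosed_residueField_R0 A hq hA
  have hW : qExpand k₀ N Z ≠ 0 := fun h0 =>
    hZ0 (qExpand_injective (R := k₀) (M' * q * q) (h0.trans (map_zero _).symm))
  obtain ⟨c', hc', hS⟩ := exists_eq_pow_of_pow_eq (Nat.sub_pos_of_lt hq.one_lt) hm hW e
  -- the root in `k₀(X₀(M'))`
  set H₀ : LaurentSeries k₀ := algebraMap k₀ (LaurentSeries k₀) c' * Z with hH₀
  have hH₀mem : H₀ ∈ modularFunctionFieldFullC k₀ M' :=
    mul_mem ((modularFunctionFieldFullC k₀ M').algebraMap_mem c') hZ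
  have hH₀0 : H₀ ≠ 0 :=
    mul_ne_zero ((map_ne_zero (algebraMap k₀ (LaurentSeries k₀))).2 hc') hZ0
  have hqH : qExpand k₀ N H₀ = algebraMap k₀ (LaurentSeries k₀) c' * qExpand k₀ N Z := by
    rw [hH₀, map_mul, algebraMap_laurentSeries_eq_single, qExpand_single, mul_zero]
  -- push to `𝕜`
  have hHmem : coeffMap (resMapK0 A) H₀ ∈ FresBar M' A := by
    rw [Fermat.Agent.GJ.J1.Res.FresBar_eq_fullC M' A hqM hA]
    exact coeffMap_mem_fullC (resMapK0 A) M' hH₀mem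
  refine ⟨fun σ hσ => ?_, hU, ⟨coeffMap (resMapK0 A) H₀, hHmem⟩, ?_, ?_⟩
  · apply Units.ext
    show galF N σ ((u' : (FK N)ˣ) : FK N) = _
    rw [← hmap]
    exact Fermat.Agent.GL.RatLiftK0.galF_mapK0Bar A N σ hσ X₀
  · intro h0
    apply hH₀0
    apply coeffMap_injective _ (resMapK0 A).injective
    rw [map_zero]
    exact congrArg Subtype.val h0
  · have hu3 : mapK0Bar A N X₀ ∈ (redData3 N A q).Rw := by rw [hmap]; exact hU.2.2.1
    have hx'' : toFN0 A N X₀ ∈ (redDataCusp N A (cusp3 N q)).Rw := by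
      rw [toFN0_eq_mapK0Bar]; exact hu3
    have h7 := coeffMap_resMapK0_coe_red A N (cusp3 N q) hq hA X₀ hx hx''
    have h8 : (⟨toFN0 A N X₀, hx''⟩ : (redDataCusp N A (cusp3 N q)).Rw) =
        (⟨((u' : (FK N)ˣ) : FK N), hU.2.2.1⟩ : (redData3 N A q).Rw) :=
      Subtype.ext ((toFN0_eq_mapK0Bar A N X₀).trans hmap)
    rw [h8] at h7
    show (((redData3 N A q).red ⟨((u' : (FK N)ˣ) : FK N), hU.2.2.1⟩ :
      FresCusp N A (cusp3 N q)) : LaurentSeries 𝕜) = _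
    rw [← h7, hS, ← hqH, map_pow, coeffMap_qExpand]

/-- the same with `Z` in the residue field `FresK0 A (M' q)` of the middle level. -/
theorem isPow3_of_pow_eq_mid (hqM : ¬ q ∣ M') (hA : (q : Kb) ∈ A.nonunits)
    (h : HallDvd (q ^ 2) (M' * q * q)) {m : ℕ} (hm : 0 < m)
    (X₀ : F₀) (u' : (FK N)ˣ) (hmap : mapK0Bar A N X₀ = ((u' : (FK N)ˣ) : FK N))
    (hU : IsU3 (M' * q) q A h u') (Z : FresK0 A (M' * q)) (hZ0 : Z ≠ 0)
    (hx : X₀ ∈ (redData3K0 A N q Fact.out hA).Rw)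
    (e : (redData3K0 A N q Fact.out hA).red ⟨X₀, hx⟩ ^ (q - 1) =
      (fres3Old A Fact.out hA Z) ^ (m * (q - 1))) :
    IsPow3 A h m u' := by
  have hZ : (Z : LaurentSeries k₀) ∈ modularFunctionFieldFullC k₀ M' := by
    have h0 : ∀ v : LaurentSeries k₀, v ∈ FresK0 A (M' * q) →
        v ∈ modularFunctionFieldFullC k₀ M' := by
      intro v hv
      rw [Fermat.Agent.GL.Val.ResW3Top.FresK0_mid_eq_fullC A Fact.out hqM hA] at hv
      exact hv
    exact h0 _ Z.2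
  refine isPow3_of_pow_eq hqM hA h hm X₀ u' hmap hU hZ (fun h0 => hZ0 (Subtype.ext h0)) hx ?_
  have := congrArg (fun w : Fres3K0 A N q Fact.out hA => (w : LaurentSeries k₀)) e
  simpa using this

/-- … hence the class lies in `K3fix`. -/
theorem mem_K3fix_of_pow_eq (hqM : ¬ q ∣ M') (hA : (q : Kb) ∈ A.nonunits)
    (h : HallDvd (q ^ 2) (M' * q * q)) {m : ℕ} (hm : 0 < m)
    (X₀ : F₀) (u' : pDivUnits Kb (FK N) m)
    (hmap : mapK0Bar A N X₀ = ((u' : (FK N)ˣ) : FK N))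
    (hU : IsU3 (M' * q) q A h (u' : (FK N)ˣ))
    {Z : LaurentSeries k₀} (hZ : Z ∈ modularFunctionFieldFullC k₀ M') (hZ0 : Z ≠ 0)
    (hx : X₀ ∈ (redData3K0 A N q Fact.out hA).Rw)
    (e : (((redData3K0 A N q Fact.out hA).red ⟨X₀, hx⟩ : Fres3K0 A N q Fact.out hA) :
        LaurentSeries k₀) ^ (q - 1) = (qExpand k₀ N Z) ^ (m * (q - 1))) :
    Additive.ofMul (Kum.mk u') ∈ K3fix A h m :=
  ⟨u', rfl, isPow3_of_pow_eq hqM hA h hm X₀ u' hmap hU hZ hZ0 hx e⟩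

end Tail

/-! ### the `ℚ̄`-level tail: `PowHyp ⟹ VSharp` -/

section BarTail

open Fermat.Agent.GJ.Kum Fermat.Agent.GK.UQ Fermat.Agent.GK.New Fermat.Agent.GK.Tate.KumHecke
open Fermat.Agent.GB.A3.Ob Fermat.Agent.GF.D3

variable {M' q : ℕ} [NeZero M'] [Fact q.Prime] (A : ValuationSubring Kb)
  (h : HallDvd (q ^ 2) (M' * q * q))

local notation "N" => M' * q * q
local notation "𝕜" => ResidueField A

/-- **the `(q-1)`-power row of `T_ℓ` at `w₃`** (output shape of helper30's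
`SharpPow.red3_hecke_pow`, with bare series): for an `I_A`-fixed unit `u` along the three
components, `T_ℓ u` is a unit along the three components, the third reductions of `u` and `T_ℓ u`
are rescaled series `y3(t^N)`, `Y3(t^N)`, and `Y3^(q-1) = (T̄_ℓ y3)^(q-1)`. -/
def PowHyp (ℓ : ℕ) [NeZero ℓ] (hMN : HNMemHyp (M' * q * q) ℓ) : Prop :=
  ∀ u : (FK N)ˣ, (∀ σ ∈ A.inertiaSubgroupIn ℚ, galUnits N σ u = u) →
    ∀ hu : IsU3 (M' * q) q A h u,
      ∃ (hX : IsU3 (M' * q) q A h (heckeUnits hMN u)) (y3 Y3 : LaurentSeries 𝕜),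
        red3Ser A u hu.2.2.1 = qExpand 𝕜 N y3 ∧
        red3Ser A (heckeUnits hMN u) hX.2.2.1 = qExpand 𝕜 N Y3 ∧
        Y3 ^ (q - 1) = heckeNorm ℓ y3 ^ (q - 1)

variable {A h}

/-- `T̄_ℓ` preserves the residue function field of a level with `HNMemHyp`. -/
theorem heckeNorm_mem_FresBar {L : ℕ} [NeZero L] {ℓ : ℕ} [NeZero ℓ] (hL : HNMemHyp L ℓ)
    (H : FresBar L A) : heckeNorm ℓ (H : LaurentSeries 𝕜) ∈ FresBar L A := by
  obtain ⟨x, hx⟩ := (redDataBar L A).red_surjective H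
  have h1 := coe_red_heckeHom A hL x.2
  have h2 : (⟨(x : FK L), x.2⟩ : (redDataBar L A).Rw) = x := rfl
  rw [h2, hx] at h1
  rw [← h1]
  exact Subtype.property _

/-- **`T_ℓ` preserves `IsPow3`** under the `(q-1)`-power row. -/
theorem isPow3_heckeUnits {ℓ : ℕ} [NeZero ℓ] {hMN : HNMemHyp (M' * q * q) ℓ}
    (hpow : PowHyp A h ℓ hMN) (hM' : HNMemHyp M' ℓ) {m : ℕ} (hm : 0 < m) {u : (FK N)ˣ}
    (hu : IsPow3 A h m u) : IsPow3 A h m (heckeUnits hMN u) := by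
  have hq : q.Prime := Fact.out
  have : IsAlgClosed 𝕜 := Fermat.Agent.GJ.ResidueAlgClosed.isAlgClosed_residueField A
  obtain ⟨hfix, hU, H, hH, e⟩ := hu
  obtain ⟨hX, y3, Y3, e1, e2, e3⟩ := hpow u hfix hU
  -- `y3 = H ^ m`
  have hy3 : y3 = (H : LaurentSeries 𝕜) ^ m := by
    apply qExpand_injective (R := 𝕜) (M' * q * q)
    rw [← e1, e, map_pow]
  have hTH : heckeNorm ℓ (H : LaurentSeries 𝕜) ≠ 0 :=
    Fermat.Agent.GB.A.A5.HeckeKerRed.heckeNorm_ne_zero' ℓ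
      (fun h0 => hH (Subtype.ext h0))
  rw [hy3, heckeNorm_pow, ← pow_mul] at e3
  obtain ⟨c', hc', hY3⟩ := exists_eq_pow_of_pow_eq (Nat.sub_pos_of_lt hq.one_lt) hm hTH e3
  have hmem : algebraMap 𝕜 (LaurentSeries 𝕜) c' * heckeNorm ℓ (H : LaurentSeries 𝕜) ∈
      FresBar M' A :=
    mul_mem ((FresBar M' A).algebraMap_mem c') (heckeNorm_mem_FresBar hM' H)
  refine ⟨heckeUnits_fixed A hMN u hfix, hX,
    ⟨algebraMap 𝕜 (LaurentSeries 𝕜) c' * heckeNorm ℓ (H : LaurentSeries 𝕜), hmem⟩, ?_, ?_⟩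
  · intro h0
    have h1 : algebraMap 𝕜 (LaurentSeries 𝕜) c' * heckeNorm ℓ (H : LaurentSeries 𝕜) = 0 :=
      congrArg Subtype.val h0
    exact mul_ne_zero ((map_ne_zero (algebraMap 𝕜 (LaurentSeries 𝕜))).2 hc') hTH h1
  · rw [e2, hY3, map_pow]

/-- **(V♯) from the `(q-1)`-power rows**, at one place. -/
theorem vSharp_of_powHyp (m : ℕ)
    (hpow : ∀ (ℓ : ℕ) (hℓ : ℓ.Prime) (hℓN : ¬ ℓ ∣ M' * q * q),
      haveI : NeZero ℓ := ⟨hℓ.ne_zero⟩
      PowHyp A h ℓ (Fermat.Agent.GJ.Kum.KumGate.hnMemHyp (M' * q * q) hℓ hℓN)) :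
    VSharp A h m := by
  intro ℓ hℓ hℓN hℓm y hy
  haveI : NeZero ℓ := ⟨hℓ.ne_zero⟩
  have hm : 0 < m := Nat.pos_of_ne_zero (by rintro rfl; exact hℓm (dvd_zero ℓ))
  have hMN : HNMemHyp (M' * q * q) ℓ :=
    Fermat.Agent.GJ.Kum.KumGate.hnMemHyp (M' * q * q) hℓ hℓN
  have hD : HNDivHyp (M' * q * q) m ℓ :=
    Fermat.Agent.GJ.Kum.KumGate.hnDivHyp (M' * q * q) m hℓ hℓN
  have hℓM' : ¬ ℓ ∣ M' := fun hd => hℓN (Dvd.dvd.mul_right (Dvd.dvd.mul_right hd q) q)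
  have hM' : HNMemHyp M' ℓ := Fermat.Agent.GJ.Kum.KumGate.hnMemHyp M' hℓ hℓM'
  obtain ⟨u, rfl, hu⟩ := hy
  exact ⟨⟨heckeUnits hMN u, heckeUnits_mem hMN hD u u.2⟩, rfl,
    isPow3_heckeUnits (hpow ℓ hℓ hℓN) hM' hm hu⟩

/-- **(V♯), closed form, from the `(q-1)`-power rows at every good place and prime.** -/
theorem vSharpStmt_of_powHyp
    (hpow : ∀ (M' q : ℕ) [NeZero M'] [Fact q.Prime]
      (hgood : Fermat.Agent.GL.Final.GeomGate.GoodAuxLevel (M' * q) q)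
      (A : ValuationSubring Kb) (_ : A.LiesOverPrime q)
      (ℓ : ℕ) (hℓ : ℓ.Prime) (hℓN : ¬ ℓ ∣ M' * q * q),
      haveI : NeZero ℓ := ⟨hℓ.ne_zero⟩
      PowHyp A (hallDvd_sq_of_good Fact.out hgood) ℓ
        (Fermat.Agent.GJ.Kum.KumGate.hnMemHyp (M' * q * q) hℓ hℓN)) :
    VSharpStmt := by
  intro p _ _ M' q _ _ _ hgood A hA
  exact vSharp_of_powHyp p (fun ℓ hℓ hℓN => hpow M' q hgood A hA ℓ hℓ hℓN)

end BarTail

end Fermat.Agent.GE8.SQ.V.SharpTail
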