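/-
GATE-E / E8.SQ / (V♯) CLOSED (helper30 plug): `vSharpStmt : Stmt3K.VSharpStmt` =
helper21's `SharpTail.vSharpStmt_of_powHyp` applied to `SharpPow.red3_hecke_pow`.
(helper97's `V/Sharp.lean` may land the same term under `…V.Sharp.vSharpStmt`; no name clash.)
-/
import Fermat.Agent.GE8.SQ.V.SharpPow
import Fermat.Agent.GE8.SQ.V.SharpTail

set_option autoImplicit false
set_option linter.style.haveILetI false

noncomputable section

namespace Fermat.Agent.GE8.SQ.V.SharpPlug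

open Fermat.Agent.GJ.KumGroup Fermat.Agent.GJ.Kum.KumType
open Fermat.Agent.GE8.SQ.Stmt3K Fermat.Agent.GE8.SQ.V.SharpTail Fermat.Agent.GE8.SQ.V.SharpPow
open Fermat.Agent.GE8.SQ.V.Val

/-- **(V♯)**: `Stmt3K.VSharpStmt` holds. -/
theorem vSharpStmt : VSharpStmt := by
  refine vSharpStmt_of_powHyp ?_
  intro M' q _ _ hgood A hA ℓ hℓ hℓN
  have hq : q.Prime := Fact.out
  haveI : NeZero q := ⟨hq.ne_zero⟩
  haveI : Fact ℓ.Prime := ⟨hℓ⟩
  haveI : NeZero ℓ := ⟨hℓ.ne_zero⟩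
  have hqM : ¬ q ∣ M' := fun hd => hgood.2.1 (by
    obtain ⟨c, rfl⟩ := hd
    exact ⟨c, by ring⟩)
  intro u hfix hu
  exact red3_hecke_pow A hq hqM hA hℓN _
    (Fermat.Agent.GJ.Kum.KumGate.hnMemHyp (M' * q) hℓ (not_dvd_level hℓN)) _ u hfix hu

end Fermat.Agent.GE8.SQ.V.SharpPlug
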